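import Fermat.Agent.LL.Mazur.InfPower
import Fermat.Agent.Models.Gamma0.Horizontal

/-!
# S59, unit F1: what Mazur’s principle needs on the component over infinity and along horizontal primes
-/

set_option autoImplicit false
set_option linter.style.haveILetI false
set_option linter.unusedSectionVars false

noncomputable section

namespace Fermat.Agent.R59

open UpperHalfPlane CongruenceSubgroup IsLocalRing ModularCurve AlgebraicCurve
open Fermat.Agent.GalRep Fermat.Agent.GalRep.Level Fermat.Agent.GalRep.Semistable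
open Fermat.Agent.ModField
open Fermat.Agent.NewVec
open Fermat.Agent.GalRep.Model (chartRing)
open Fermat.Agent.Models (HasRootAt)
open scoped MatrixGroups

local notation "ℚb" => AlgebraicClosure ℚ
local notation "κ" A:max => IsLocalRing.ResidueField A

/-- Reductions at level `Γ₀(q m)` on the component over infinity have level `m`. -/
def RedMemBad (A : ValuationSubring (AlgebraicClosure ℚ)) (q m : ℕ) [NeZero m] : Prop :=
  ∀ ⦃φ : ℍ → ℂ⦄, IsModFun (Gamma0 (q * m)) φ → ∀ ⦃g : LaurentSeries ℚb⦄,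
    HasQSeries 1 φ (seriesToC g) → (∀ i, FixedConst A (g.coeff i)) →
      ∀ ⦃Y : LaurentSeries (κ A)⦄, HasRed A g Y → Y ∈ modularFunctionFieldFullC (κ A) m

set_option maxHeartbeats 1600000 in
set_option synthInstance.maxHeartbeats 200000 in
/-- The reduction of the power of a Kummer function has orders divisible by `p`. -/
def RedOrdDvd (A : ValuationSubring (AlgebraicClosure ℚ)) (p q m : ℕ) [Fact p.Prime] [NeZero p]
    [NeZero q] [NeZero m] : Prop :=
  ∀ {χ : ParHom (q * m) (ZMod p)} {F : ℍ → ℂ} {φ : MF (q * m)},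
    IsRepG (Gamma0 (q * m)) p χ F → (φ : ℍ → ℂ) = F ^ p → φ ≠ 0 →
    Inv0 (q * m) (φ : ℍ → ℂ) → AlgMF φ → InertiaFix A φ → HasPowRed A p φ →
    ∀ {r : ℚb}, r ≠ 0 → FixedConst A r → ∀ {g : LaurentSeries ℚb},
      HasQSeries 1 (fun τ => qbarToC r * (φ : ℍ → ℂ) τ) (seriesToC g) →
      ∀ (y : modularFunctionFieldFullC (κ A) m), HasRed A g (y : LaurentSeries (κ A)) → y ≠ 0 →
        ∀ Q : Place (κ A) (modularFunctionFieldFullC (κ A) m), (p : ℤ) ∣ Q.ord y

/-- `D`-th powers of powers have roots along the horizontal primes of both charts. -/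
def HorRoots (W : Type) [CommRing W] [IsDomain W] {O : Type} [CommRing O] [IsDomain O]
    [IsDiscreteValuationRing O] [Algebra W O] {M : ℕ} [NeZero M] (E : Emb O M) (q m : ℕ)
    [Fact q.Prime] [NeZero q] [NeZero m] [Algebra W (Fld E)] [IsScalarTower W O (Fld E)]
    (n D : ℕ) : Prop :=
  ∀ w : Fld₀ W E q m, w = jF₀ W E q m ∨ w = (jF₀ W E q m)⁻¹ →
    ∀ Q : Ideal (chartRing W w), Q.IsPrime → Q ≠ ⊥ →
      algebraMap W (chartRing W w) (q : W) ∉ Q → ∀ x : Fld₀ W E q m, x ≠ 0 →
        ∀ a b : bddMF E, IsPowFun n (a : MF M) → IsPowFun n (b : MF M) →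
          (x : Fld E) = toFld E a / toFld E b → HasRootAt (chartRing W w) n (x ^ D) Q

end Fermat.Agent.R59

namespace Fermat.Agent.R59

open UpperHalfPlane CongruenceSubgroup IsLocalRing ModularCurve AlgebraicCurve
open Fermat.Agent.GalRep Fermat.Agent.GalRep.Level Fermat.Agent.GalRep.Semistable
open Fermat.Agent.ModField
open Fermat.Agent.NewVec
open scoped MatrixGroups

set_option maxHeartbeats 1600000 in
set_option synthInstance.maxHeartbeats 200000 in
/-- `RedOrdDvd` at the places over infinity only (the case that depends on `p ∣ m`). -/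
def RedOrdInfDvd (A : ValuationSubring (AlgebraicClosure ℚ)) (p q m : ℕ) [Fact p.Prime] [NeZero p]
    [NeZero q] [NeZero m] : Prop :=
  ∀ {χ : ParHom (q * m) (ZMod p)} {F : ℍ → ℂ} {φ : MF (q * m)},
    IsRepG (Gamma0 (q * m)) p χ F → (φ : ℍ → ℂ) = F ^ p → φ ≠ 0 →
    Inv0 (q * m) (φ : ℍ → ℂ) → AlgMF φ → InertiaFix A φ → HasPowRed A p φ →
    ∀ {r : AlgebraicClosure ℚ}, r ≠ 0 → FixedConst A r →
      ∀ {g : LaurentSeries (AlgebraicClosure ℚ)},
      HasQSeries 1 (fun τ => qbarToC r * (φ : ℍ → ℂ) τ) (seriesToC g) →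
      ∀ (y : modularFunctionFieldFullC (ResidueField A) m),
        HasRed A g (y : LaurentSeries (ResidueField A)) → y ≠ 0 →
        ∀ Q : Place (ResidueField A) (modularFunctionFieldFullC (ResidueField A) m),
          MCurve.jFullC (ResidueField A) m ∉ Q.toValuationSubring → (p : ℤ) ∣ Q.ord y

end Fermat.Agent.R59
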