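import Fermat.Agent.LL.Mazur.RedOrd

/-!
# S59, unit F1: orders of reductions with triple zeros of `j` and a hypothesis over infinity

The variant of `LL/Mazur/RedOrd.dvd_ord_of_roots` in which tameness may fail at triple zeros of `j`
(when all zeros below are triple) and over infinity (when the divisibility is known there).
-/

set_option autoImplicit false
set_option linter.style.haveILetI false
set_option linter.unusedSectionVars false

noncomputable section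

namespace Fermat.Agent.R59

open IsLocalRing ModularCurve AlgebraicCurve
open Fermat.Agent.LL.Mazur (exists_reduced_root dvd_ord_of_unit)
open Fermat.Agent.Models (HasRootAt ChartFibre)

variable {O F : Type} [CommRing O] [Field F] [Algebra O F] {ι : Type}
  {P : ι → ValuationSubring F} {π : O}

variable {k : Type} [Field k] {K : Subfield (LaurentSeries k)} {p m m₀ : ℕ} [Fact p.Prime]
  [NeZero m] [NeZero m₀]

/-- Roots at all closed points of both charts make the orders of the reduction divisible by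
`p`. -/
theorem dvd_ord_of_roots_triple {Z P' : Prop} {w : F} (hw0 : w ≠ 0) {B₀ B₁ : Subalgebra O F}
    (hf₀ : ChartFibre B₀ π P) (hf₁ : ChartFibre B₁ π P)
    (hi₀ : ∀ b ∈ B₀, IsIntegral (Algebra.adjoin O ({w} : Set F)) b)
    (hi₁ : ∀ b ∈ B₁, IsIntegral (Algebra.adjoin O ({w⁻¹} : Set F)) b)
    (hwB₀ : w ∈ B₀) (hwB₁ : w⁻¹ ∈ B₁) (i : ι) (ρ : P i →+* K)
    (hker : ∀ z : P i, ρ z = 0 ↔ (z : F) ∈ (P i).nonunits)
    (res : O →+* k) (hsurj : Function.Surjective res)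
    (hcst : ∀ (o : O) (ho : algebraMap O F o ∈ P i),
      (ρ ⟨_, ho⟩ : LaurentSeries k) = HahnSeries.C (res o))
    (hj : ∀ hmem : w ∈ P i, (ρ ⟨w, hmem⟩ : LaurentSeries k) = qExpand k m (jqModC k))
    (hqK : ∀ y ∈ modularFunctionFieldFullC k m₀, qExpand k m y ∈ K)
    (htame : ∀ Wv : ValuationSubring K,
      (∀ (c : k) (hc : HahnSeries.C c ∈ K), (⟨_, hc⟩ : K) ∈ Wv) → Wv ≠ ⊤ →
      ∃ u : K, u ≠ 0 ∧ Wv.valuation u < 1 ∧
        (∀ x : K, x ≠ 0 → ∃ n : ℤ, Wv.valuation x = Wv.valuation u ^ n) ∧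
        ∃ n : ℕ, 0 < n ∧ ∀ (J : K),
          (J : LaurentSeries k) = qExpand k m (jqModC k) →
          ((∃ (c : k) (C : K), (C : LaurentSeries k) = HahnSeries.C c ∧
              Wv.valuation (J - C) = Wv.valuation u ^ n ∧ (¬ p ∣ n ∨ ¬ p * p ∣ n ∧ c = 0 ∧ Z)) ∨
            (P' ∨ ¬ p ∣ n) ∧ Wv.valuation J⁻¹ = Wv.valuation u ^ n))
    {f : F} (hf : f ∈ P i) (hr₀ : ∀ m : Ideal B₀, m.IsMaximal → HasRootAt B₀ p f m)
    (hr₁ : ∀ m : Ideal B₁, m.IsMaximal → HasRootAt B₁ p f m)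
    (y : modularFunctionFieldFullC k m₀) (hy0 : y ≠ 0)
    (hZ : Z → ∀ Q : Place k (modularFunctionFieldFullC k m₀), 0 < Q.ord (MCurve.jFullC k m₀) →
      (p : ℤ) ∣ Q.ord (MCurve.jFullC k m₀))
    (hP : P' → ∀ Q : Place k (modularFunctionFieldFullC k m₀),
      MCurve.jFullC k m₀ ∉ Q.toValuationSubring → (p : ℤ) ∣ Q.ord y)
    (hh : (ρ ⟨f, hf⟩ : LaurentSeries k) = qExpand k m (y : LaurentSeries k))
    (Q : Place k (modularFunctionFieldFullC k m₀)) : (p : ℤ) ∣ Q.ord y := by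
  let ι₀ : modularFunctionFieldFullC k m₀ →+* K :=
    ((qExpand k m).comp (modularFunctionFieldFullC k m₀).val.toRingHom).codRestrict _
      fun x => hqK _ x.2
  obtain ⟨Wv, hWv⟩ := Models.exists_comap_eq ι₀ Q.toValuationSubring
  have hιc : ∀ c : k, (ι₀ (algebraMap k _ c) : LaurentSeries k) = HahnSeries.C c := fun c => by
    show qExpand k m (algebraMap k (LaurentSeries k) c) = _
    rw [algebraMap_laurentSeries_eq_single, ← HahnSeries.C_apply, qExpand_C]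
  have hW : ∀ (c : k) (hc : HahnSeries.C c ∈ K), (⟨_, hc⟩ : K) ∈ Wv := by
    intro c hc
    rw [show (⟨_, hc⟩ : K) = ι₀ (algebraMap k _ c) from Subtype.ext (hιc c).symm]
    have := Q.algebraMap_mem' c
    rw [← hWv] at this
    exact this
  have htop : Wv ≠ ⊤ := fun h' => Q.ne_top' (by
    rw [← hWv, h']
    ext x
    simp only [ValuationSubring.mem_top, ValuationSubring.mem_comap])
  obtain ⟨u, hu, hu1, hgen, n, hn0, hJ⟩ := htame Wv hW htop
  have hcW : ∀ (o : O) (ho : algebraMap O F o ∈ P i), ρ ⟨_, ho⟩ ∈ Wv := fun o ho => by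
    rw [show ρ ⟨_, ho⟩ = ⟨_, hcst o ho ▸ (ρ ⟨_, ho⟩).2⟩ from Subtype.ext (hcst o ho)]
    exact hW _ _
  set jF : modularFunctionFieldFullC k m₀ := MCurve.jFullC k m₀
  have hιj : (ι₀ jF : LaurentSeries k) = qExpand k m (jqModC k) := rfl
  have hwP : w ∈ P i := hf₀.le i _ hwB₀
  have hρj : ρ ⟨w, hwP⟩ = ι₀ jF := Subtype.ext ((hj hwP).trans hιj.symm)
  have hne : Wv.valuation u ^ n ≠ 0 := pow_ne_zero n ((_root_.map_ne_zero _).mpr hu)
  have hlt : Wv.valuation u ^ n < 1 := pow_lt_one₀ zero_le hu1 hn0.ne'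
  have hfK : ρ ⟨f, hf⟩ = ι₀ y := Subtype.ext hh
  have hf0 : ρ ⟨f, hf⟩ ≠ 0 := fun h' => hy0 ((map_eq_zero ι₀).mp (hfK ▸ h'))
  have hp := (Fact.out : p.Prime)
  suffices h : (MCurve.jFullC k m₀ ∉ Q.toValuationSubring ∧ P') ∨
      ∃ (n₁ : ℕ) (x : modularFunctionFieldFullC k m₀), ¬ p ∣ n₁ ∧
        Wv.valuation (ι₀ x) = Wv.valuation u ^ n₁ ∧
        ∃ z : K, z ≠ 0 ∧ Wv.valuation (ι₀ y) = Wv.valuation z ^ p by
    rcases h with ⟨hjQ, hP'⟩ | ⟨n₁, x, hn₁, hx, z, hz, hval⟩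
    · exact hP hP' Q hjQ
    · obtain ⟨t, ht, h1, h2⟩ := Models.exists_pow_mul_unit ι₀ Wv hp hu hu1 hgen hn₁ hx hz hval
      exact dvd_ord_of_unit Q hy0 ht (hWv ▸ h1) (hWv ▸ h2)
  rcases hJ (ι₀ jF) hιj with ⟨c, C, hC, hv, hn⟩ | ⟨hn, hv⟩
  · obtain ⟨o, ho⟩ := hsurj c
    have hC' : C = ι₀ (algebraMap k _ c) := Subtype.ext (hC.trans (hιc c).symm)
    have hoP : algebraMap O F o ∈ P i := hf₀.le i _ (B₀.algebraMap_mem o)
    have hb : ρ ⟨((⟨w, hwB₀⟩ : B₀) - algebraMap O B₀ o : B₀),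
          hf₀.le i _ (Subtype.mem _)⟩ = ι₀ jF - C := by
      rw [← hρj, show C = ρ ⟨algebraMap O F o, hoP⟩ from Subtype.ext
        (hC.trans ((hcst o hoP).trans (congrArg _ ho)).symm), ← map_sub]
      rfl
    have hjW : ρ ⟨w, hwP⟩ ∈ Wv := by
      rw [hρj, ← sub_add_cancel (ι₀ jF) C]
      refine add_mem ((Wv.valuation_le_one_iff _).mp (hv ▸ hlt.le)) ?_
      have := hW c (hC ▸ C.2)
      rwa [show (⟨HahnSeries.C c, hC ▸ C.2⟩ : K) = C from Subtype.ext hC.symm] at this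
    obtain ⟨z, hz, hzv⟩ := exists_reduced_root hf₀ hi₀ hwB₀ hp.ne_zero i ρ hker Wv hcW
      (fun _ => hjW) ⟨_, fun h' => hne (by rw [← hv, ← hb, h', map_zero]), by rw [hb, hv]; exact hlt⟩
      hr₀ hf hf0
    rcases hn with hn | ⟨hn, hc, hZ'⟩
    · exact Or.inr ⟨n, jF - algebraMap k _ c, hn, by rw [map_sub, ← hC']; exact hv,
        z, hz, hfK ▸ hzv⟩
    -- a triple zero of `j`: the uniformiser of the place below is unramified
    rw [show C = 0 from Subtype.ext (hC.trans (by rw [hc, map_zero]; rfl)), sub_zero] at hv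
    have hjm : jF ∈ Q.toValuationSubring := by
      rw [← hWv]
      exact (Wv.valuation_le_one_iff _).mp (hv ▸ hlt.le)
    have hj0 : jF ≠ 0 := fun h' => hne (by rw [← hv, h', map_zero, map_zero])
    have hunit : ∀ f : modularFunctionFieldFullC k m₀, f ≠ 0 → Q.ord f = 0 →
        Wv.valuation (ι₀ f) = 1 := by
      intro f hf' h0
      have h1 := (MCurve.mem_iff_ord_nonneg Q hf').mpr h0.ge
      have h2 := (MCurve.mem_iff_ord_nonneg Q (inv_ne_zero hf')).mpr (by rw [Q.ord_inv, h0, neg_zero])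
      rw [← hWv, ValuationSubring.mem_comap, ← Wv.valuation_le_one_iff] at h1 h2
      rw [map_inv₀, map_inv₀] at h2
      exact le_antisymm h1 ((inv_le_one₀ (zero_lt_iff.mpr
        ((_root_.map_ne_zero _).mpr ((_root_.map_ne_zero _).mpr hf')))).mp h2)
    have hpos : 0 < Q.ord jF := by
      refine lt_of_le_of_ne ((MCurve.mem_iff_ord_nonneg Q hj0).mp hjm) fun h0 => ?_
      rw [hunit _ hj0 h0.symm] at hv
      exact hlt.ne hv.symm
    obtain ⟨t, ht, ht1⟩ := MCurve.exists_ord_eq_one Q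
    obtain ⟨a, ha⟩ := hgen (ι₀ t) ((_root_.map_ne_zero ι₀).mpr ht)
    have hf1 : jF * t ^ (-Q.ord jF) ≠ 0 := mul_ne_zero hj0 (zpow_ne_zero _ ht)
    have h1 := hunit _ hf1 (by rw [Q.ord_mul hj0 (zpow_ne_zero _ ht), Q.ord_zpow, ht1]; ring)
    rw [map_mul, map_mul, map_zpow₀, map_zpow₀, ha, hv, ← zpow_mul, ← zpow_natCast,
      ← zpow_add₀ ((_root_.map_ne_zero _).mpr hu)] at h1
    have he : (n : ℤ) + a * -Q.ord jF = 0 :=
      zpow_right_injective₀ (zero_lt_iff.mpr ((_root_.map_ne_zero _).mpr hu)) hu1.ne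
        (h1.trans (zpow_zero _).symm)
    obtain ⟨b, hb'⟩ := hZ hZ' Q hpos
    change Q.ord jF = _ at hb'
    rw [hb'] at he hpos
    have hnab : (n : ℤ) = a * ((p : ℤ) * b) := by linear_combination he
    have ha0 : 0 ≤ a := le_of_lt (pos_of_mul_pos_left (by rw [← hnab]; exact_mod_cast hn0) hpos.le)
    obtain ⟨a', rfl⟩ := Int.eq_ofNat_of_zero_le ha0
    refine Or.inr ⟨a', t, fun hpa => hn ?_, by rw [ha, zpow_natCast], z, hz, hfK ▸ hzv⟩
    refine Int.natCast_dvd_natCast.mp ?_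
    rw [hnab, Nat.cast_mul]
    exact mul_dvd_mul (Int.natCast_dvd_natCast.mpr hpa) (dvd_mul_right _ _)
  · by_cases hP' : P'
    · refine Or.inl ⟨fun hjm => ?_, hP'⟩
      rw [show MCurve.jFullC k m₀ = jF from rfl, ← hWv, ValuationSubring.mem_comap,
        ← Wv.valuation_le_one_iff] at hjm
      rw [map_inv₀] at hv
      have h0 : 0 < Wv.valuation (ι₀ jF) := by
        rw [← inv_pos, hv]; exact zero_lt_iff.mpr hne
      exact (hv ▸ hlt).not_ge ((one_le_inv₀ h0).mpr hjm)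
    have hwP' : w⁻¹ ∈ P i := hf₁.le i _ hwB₁
    have hinv : ρ ⟨w⁻¹, hwP'⟩ = (ι₀ jF)⁻¹ := by
      refine eq_inv_of_mul_eq_one_left ?_
      rw [← hρj, ← map_mul, ← map_one ρ]
      exact congrArg ρ (Subtype.ext (inv_mul_cancel₀ hw0))
    obtain ⟨z, hz, hzv⟩ := exists_reduced_root hf₁ hi₁ hwB₁ hp.ne_zero i ρ hker Wv hcW
      (fun _ => by rw [hinv]; exact (Wv.valuation_le_one_iff _).mp (hv ▸ hlt.le))
      ⟨⟨_, hwB₁⟩, fun h' => hne (by rw [← hv, ← hinv, h', map_zero]),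
        by rw [hinv, hv]; exact hlt⟩
      hr₁ hf hf0
    exact Or.inr ⟨n, jF⁻¹, hn.resolve_left hP', by rw [map_inv₀]; exact hv, z, hz, hfK ▸ hzv⟩

end Fermat.Agent.R59
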