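import Fermat.Agent.LL.Mazur.InfOrders
import Fermat.Agent.R59.Mazur.Gen.Defs
import Fermat.Agent.R59.Mazur.Gen.OrdRoots
import Fermat.Agent.R59.Mazur.Two.RedComp
import Fermat.Agent.MCurve.Spec.PlaceLift

/-!
# S59, unit F1: orders of the reduction from tameness over the line of `j`

`LL/Mazur/InfOrders.dvd_ord_red` with the coordinate, the horizontal exponent and tameness as inputs.
-/

set_option autoImplicit false
set_option linter.style.haveILetI false
set_option linter.unusedSectionVars false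

noncomputable section

namespace Fermat.Agent.R59

open UpperHalfPlane CongruenceSubgroup IsLocalRing ModularCurve AlgebraicCurve
open Fermat.Agent.LL.Mazur
open Fermat.Agent.GalRep Fermat.Agent.GalRep.Level Fermat.Agent.GalRep.Semistable
open Fermat.Agent.ModField
open Fermat.Agent.NewVec
open Fermat.Agent.MCurve.Spec (redFld C_mem_redFld)
open Fermat.Agent.GalRep.InertiaBase (rBase rFld rUnif embR rTop wTop totRam embO_K_le
  toLS_algebraMap_top rBase_dvr)
open Fermat.Agent.GalRep.Model (chartRing)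
open Fermat.Agent.Models (HasRootAt IsU)
open scoped MatrixGroups Manifold

local notation "ℚb" => AlgebraicClosure ℚ
local notation "κ" A:max => IsLocalRing.ResidueField A

set_option maxHeartbeats 1600000 in
set_option synthInstance.maxHeartbeats 200000 in
/-- All zeros of `j` at level `m` modulo the prime below `A` have order divisible by `p`. -/
def ZerosJ (A : ValuationSubring (AlgebraicClosure ℚ)) (p m : ℕ) [NeZero m] : Prop :=
  ∀ Q : Place (κ A) (modularFunctionFieldFullC (κ A) m),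
    0 < Q.ord (MCurve.jFullC (κ A) m) → (p : ℤ) ∣ Q.ord (MCurve.jFullC (κ A) m)

/-- The reduced field of level `M` is tame for `p` over the line of `j`, apart from exponent `p`
over `j = 0` (under `Z`) and places over infinity (under `P`). -/
def TameJ (A : ValuationSubring (AlgebraicClosure ℚ)) (p M : ℕ) [NeZero M] (Z P : Prop) : Prop :=
  ∀ [Fact (IsUnit (M : A))] (Wv : ValuationSubring (redFld M A)),
    (∀ (x : redFld M A) (c : κ A), (x : LaurentSeries (κ A)) = HahnSeries.C c → x ∈ Wv) → Wv ≠ ⊤ →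
    ∃ u : redFld M A, u ≠ 0 ∧ Wv.valuation u < 1 ∧
      (∀ x : redFld M A, x ≠ 0 → ∃ n : ℤ, Wv.valuation x = Wv.valuation u ^ n) ∧
      ∃ n : ℕ, 0 < n ∧
        ((∃ (c : κ A) (z : redFld M A),
            (z : LaurentSeries (κ A)) = qExpand (κ A) M (jqModC (κ A)) - HahnSeries.C c ∧
            Wv.valuation z = Wv.valuation u ^ n ∧ (¬ p ∣ n ∨ ¬ p * p ∣ n ∧ c = 0 ∧ Z)) ∨
          (P ∨ ¬ p ∣ n) ∧ ∃ z : redFld M A,
            (z : LaurentSeries (κ A)) = qExpand (κ A) M (jqModC (κ A)) ∧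
            Wv.valuation z⁻¹ = Wv.valuation u ^ n)

variable {A : ValuationSubring (AlgebraicClosure ℚ)} {p q m m' : ℕ} [Fact p.Prime] [Fact q.Prime]
  [NeZero p] [NeZero q] [NeZero m] [NeZero m']

set_option maxHeartbeats 1600000 in
set_option synthInstance.maxHeartbeats 200000 in
/-- The orders of the reduction are divisible by `p`. -/
theorem redOrdDvd_of_tame (hA : A.LiesOverPrime q) (hqp : q ≠ p) (hqm' : ¬ q ∣ m')
    (Lv : Fermat.Agent.GalRep.Model.Lev m') (hmm : m ∣ m') (hpts : ChartsSemi A q m') {D : ℕ}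
    (hD : D.Coprime p)
    (hhor : ∀ [IsDiscreteValuationRing (oBase A (q * m'))],
      HorRoots (wBase A) (embO A (q * m')) q m' p D)
    (hT : TameJ A p m' (ZerosJ A p m) (RedOrdInfDvd A p q m)) :
    RedOrdDvd A p q m := by
  intro χ F φ hF hφ hφ0 hi ha hf hr r hr0 hrf g hg y hy hy0 Q
  classical
  have hq : q.Prime := Fact.out
  have hp : p.Prime := Fact.out
  haveI := GalRep.charP_residue (A := A) hq hA
  obtain ⟨hWdvr, hqW, hWac⟩ := wBase_props A hq hA
  haveI := hWdvr
  haveI := hWac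
  obtain ⟨hOdvr, hπmax, hπ⟩ := oBase_dvr (A := A) (M := q * m') hq hA rfl hqm'
  haveI := hOdvr
  haveI := finite_oBase (A := A) (M := q * m') hq hA rfl hqm'
  let E := embO A (q * m')
  have hψ := constMap_oBase (A := A) (M := q * m') hπmax
  have hW := hasFixedConsts_oBase (A := A) (M := q * m')
  have hco : Nat.Coprime q m' := hq.coprime_iff_not_dvd.mpr hqm'
  have hqO : (q : oBase A (q * m')) ∈ maximalIdeal (oBase A (q * m')) :=
    natCast_mem_maximal (A := A) (M := q * m') hq hA rfl hqm'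
  have hd : q * m ∣ q * m' := mul_dvd_mul_left q hmm
  -- the scaled function at the level of the model
  let φ' : MF (q * m') := cMF (q * m') r * liftLvl hd φ
  have hi' : Inv0 (q * m') (φ' : ℍ → ℂ) := inv0_cMF_mul r (inv0_liftLvl hd hi)
  have ha' : AlgMF φ' := (algMF_cMF r).mul (algMF_liftLvl hd ha)
  have hf' : InertiaFix A φ' := inertiaFix_cMF_mul hrf (inertiaFix_liftLvl hd hf)
  have hφc : (φ' : ℍ → ℂ) = fun τ => qbarToC r * (φ : ℍ → ℂ) τ := rfl
  let bx : bddMF E := ⟨φ', mem_bddMF_of_fixed hW ha' hf'⟩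
  let x : Fld₀ (wBase A) E q m' := ⟨toFld E bx, toFld_mem_fld₀ hW hco hi' ha' hf'⟩
  have hr0' : qbarToC r ≠ 0 := (map_ne_zero_iff _ qbarToC_injective).mpr hr0
  have hφ'0 : φ' ≠ 0 := fun h0 => hφ0 (Subtype.ext (funext fun τ =>
    (mul_eq_zero.mp (congrFun (congrArg (fun w : MF (q * m') => (w : ℍ → ℂ)) h0) τ)).resolve_left
      hr0'))
  have hx0 : x ≠ 0 := fun h0 => hφ'0 (congrArg Subtype.val
    (toFld_injective E ((congrArg Subtype.val h0).trans (map_zero _).symm) : bx = 0))
  -- its series at infinity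
  let g' := expand (q * m') (NeZero.ne _) g
  have hg' : HasQSeries (q * m') (φ' : ℍ → ℂ) (seriesToC g') := by
    have h1 := hg.refine_width one_pos (q * m') (NeZero.ne _)
    rw [one_mul] at h1
    rw [hφc, seriesToC_eq_lmap, lmap_expand]
    exact h1
  have hy' : HasRed A g' (expand (q * m') (NeZero.ne _) (y : LaurentSeries (κ A))) := hy.expand _ _
  have hY0 : expand (q * m') (NeZero.ne _) (y : LaurentSeries (κ A)) ≠ 0 :=
    (map_ne_zero_iff _ (GalRep.expand_injective _ _)).mpr fun h => hy0 (Subtype.ext h)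
  have hred1 : RedAt A (q * m') (φ' : ℍ → ℂ) 1
      (expand (q * m') (NeZero.ne _) (y : LaurentSeries (κ A))) :=
    ⟨g', by simpa only [one_smul] using hg', hy'⟩
  have hser : serAlg (q * m') φ' = seriesToC g' :=
    (hasQSeries_serHom φ').unique (NeZero.pos _) hg'
  -- powers of constants on every component
  have hscal : ∃ r₁ : ℚb, r₁ ≠ 0 ∧ FixedConst A r₁ ∧ A.valuation (r₁ ^ p / r) = 1 := by
    obtain ⟨r₁, Φ, hr1, hr1f, hΦ, b, hb, rb⟩ := hr 1
    refine ⟨r₁, hr1, hr1f, valuation_eq_one_of_hasRed (div_ne_zero (pow_ne_zero _ hr1) hr0)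
      (hy.expand (q * m) (NeZero.ne _))
      ((map_ne_zero_iff _ (GalRep.expand_injective _ _)).mpr fun h => hy0 (Subtype.ext h))
      (Y := Φ) ?_ hΦ⟩
    have h1 := (hg.refine_width one_pos (q * m) (NeZero.ne _)).smul (qbarToC (r₁ ^ p / r))
    rw [one_mul] at h1
    have h2 : b = HahnSeries.C (r₁ ^ p / r) * expand (q * m) (NeZero.ne _) g := by
      refine seriesToC_injective (hb.unique (NeZero.pos _) ?_)
      rw [seriesToC_eq_lmap (HahnSeries.C _ * _), map_mul, lmap_C, lmap_expand, ← seriesToC_eq_lmap]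
      refine h1.congr (.of_forall fun τ => ?_)
      show qbarToC (r₁ ^ p / r) * (qbarToC r * (φ : ℍ → ℂ) τ) = _
      rw [one_smul, ← mul_assoc, ← map_mul, div_mul_cancel₀ _ hr0]
      rfl
    exact h2 ▸ rb
  obtain ⟨r₁, hr1, hr1f, hu1⟩ := hscal
  obtain ⟨t, ht, hlift⟩ := exists_expand_redAt (A := A) hd
  have huA : r₁ ^ p / r ∈ A := (A.valuation_le_one_iff _).mp hu1.le
  have hcomp : ∀ δ : SL(2, ℤ), ∃ T : Fld₀ (wBase A) E q m', IsU (comp hπ δ) (T ^ p / x) := by
    intro δ
    obtain ⟨r₂, Φ, hr2, hr2f, hΦ, hΦr⟩ := hr δ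
    let X : MF (q * m') := cMF (q * m') (r₂ ^ p) * liftLvl hd φ
    let bX : bddMF E := ⟨X, mem_bddMF_of_fixed hW ((algMF_cMF _).mul (algMF_liftLvl hd ha))
      (inertiaFix_cMF_mul (hr2f.pow p) (inertiaFix_liftLvl hd hf))⟩
    have hc : FixedConst A (r₁ / r₂) := by rw [div_eq_mul_inv]; exact hr1f.mul hr2f.inv
    let bT : bddMF E := ⟨cMF (q * m') (r₁ / r₂), mem_bddMF_of_fixed hW (algMF_cMF _)
      (inertiaFix_cMF hc)⟩
    let T : Fld₀ (wBase A) E q m' := ⟨toFld E bT,
      toFld_mem_fld₀ hW hco (inv0_cMF _ _) (algMF_cMF _) (inertiaFix_cMF hc)⟩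
    have huf : FixedConst A (r₁ ^ p / r) := by
      rw [div_eq_mul_inv]; exact (hr1f.pow p).mul hrf.inv
    let bU : bddMF E := ⟨cMF (q * m') (r₁ ^ p / r), mem_bddMF_of_fixed hW (algMF_cMF _)
      (inertiaFix_cMF huf)⟩
    have hXU : IsU (gaussP E hπ δ) (toFld E bX) :=
      (rs_eq_of_redAt hψ hπ (X := bX) (Y := bX) (hlift hΦr) (hlift hΦr)
        ((map_ne_zero_iff _ (GalRep.expand_injective _ _)).mpr hΦ)).1
    have hUU : IsU (gaussP E hπ δ) (toFld E bU) :=
      (rs_eq_of_redAt hψ hπ (X := bU) (Y := bU) (redAt_cMF huA δ) (redAt_cMF huA δ)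
        ((map_ne_zero_iff _ HahnSeries.C_injective).mpr fun h0 =>
          hu1.not_lt (A.mem_nonunits_iff.mp (A.coe_mem_nonunits_iff.mpr
            ((IsLocalRing.residue_eq_zero_iff _).mp h0))))).1
    refine ⟨T, (isU_comap_iff _ _).mpr ?_⟩
    have key : bT ^ p * bX = bx * bU := Subtype.ext (Subtype.ext (funext fun τ => by
      show qbarToC (r₁ / r₂) ^ p * (qbarToC (r₂ ^ p) * (φ : ℍ → ℂ) τ) =
        qbarToC r * (φ : ℍ → ℂ) τ * qbarToC (r₁ ^ p / r)
      have : (r₁ / r₂) ^ p * r₂ ^ p = r * (r₁ ^ p / r) := by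
        rw [div_pow, div_mul_cancel₀ _ (pow_ne_zero _ hr2), mul_div_cancel₀ _ hr0]
      rw [← mul_assoc, ← map_pow, ← map_mul, this, map_mul]
      ring))
    have key' := congrArg (toFld E) key
    rw [map_mul, map_pow, map_mul] at key'
    have e : ((T ^ p / x : Fld₀ (wBase A) E q m') : Fld E) = toFld E bU / toFld E bX := by
      show toFld E bT ^ p / toFld E bx = _
      rw [div_eq_div_iff (fun h0 => hx0 (Subtype.ext h0)) hXU.ne_zero, key']
      exact mul_comm _ _
    rw [Subfield.subtype_apply, e]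
    exact hUU.div hXU
  -- roots at all points of both charts
  have hqM : q ∣ q * m' := dvd_mul_right q m'
  have hmM : m' ∣ q * m' := dvd_mul_left m' q
  have hw₀ := coord_jF (W := wBase A) (E := E) (q := q) (m := m') hπ
  have hw₁ := coord_inv_jF (W := wBase A) (E := E) (q := q) (m := m') hπ
  have hf₀ := chartFibre_two hqW hqM hmM hqm' hpts.1 hw₀ hpts.1
  have hf₁ := chartFibre_two hqW hqM hmM hqm' hpts.1 hw₁ hpts.2
  have hq0 := natCast_fld₀_ne_zero (W := wBase A) (E := E) (q := q) (m := m') hqW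
  have hpF : IsPowFun p φ' := by
    obtain ⟨s₀, hs₀⟩ := IsAlgClosed.exists_pow_nat_eq (qbarToC r) hp.pos
    obtain ⟨G, hG, hGe, hGs⟩ := isPowFun_of_rep hF ((isLevel_gamma0 (q * m)).of_dvd hd)
      (φ := liftLvl hd φ) hφ
    refine IsPowFun.mul ⟨fun _ => s₀, mdifferentiable_const, funext fun τ => hs₀.symm,
      fun δ => ⟨_, HasQSeries.const _ s₀⟩⟩ ⟨G, hG, hGe, hGs⟩
  have hone : IsPowFun p ((1 : bddMF E) : MF (q * m')) :=
    ⟨fun _ => 1, mdifferentiable_const, funext fun τ => (one_pow _).symm,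
      fun δ => ⟨_, HasQSeries.const _ 1⟩⟩
  have hhor : ∀ (w : Fld₀ (wBase A) E q m'),
      (w = jF₀ (wBase A) E q m' ∨ w = (jF₀ (wBase A) E q m')⁻¹) →
      ∀ P : Ideal (chartRing (wBase A) w), P.IsPrime → P ≠ ⊥ →
        algebraMap (wBase A) (chartRing (wBase A) w) (q : wBase A) ∉ P → HasRootAt _ p x P :=
    fun w hw P hP hP0 hPq => by
      haveI := hP
      exact hasRootAt_of_pow hx0 (hhor w hw P hP hP0 hPq x hx0 bx 1 hpF hone
        (by rw [map_one, div_one])) hp.one_lt hD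
  haveI := hw₀.isFractionRing
  haveI := hw₁.isFractionRing
  have hu := fun i => natCast_mem_twoP (W := wBase A) (E := E) (q := q) (m := m') (hπ := hπ) hqW i
  have hr₀ := Models.hasRootAt_all hf₀ hpts.1 hu
    (center_two_not_isMaximal hqW hqM hmM hqm' hpts.1 hw₀ hpts.1) hq0 hp.pos hx0
    (fun i => hcomp _) (hhor _ (Or.inl rfl))
  have hr₁ := Models.hasRootAt_all hf₁ hpts.2 hu
    (center_two_not_isMaximal hqW hqM hmM hqm' hpts.1 hw₁ hpts.2) hq0 hp.pos hx0
    (fun i => hcomp _) (hhor _ (Or.inr rfl))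
  -- the reduction on the component over infinity
  let L := IntermediateField.adjoin ℚ ({zetaQ (q * m')} : Set ℚb)
  haveI : FiniteDimensional ℚ L := WildModel.finite_adjoin_zetaQ _
  haveI : Normal ℚ L := WildModel.normal_adjoin_zetaQ _
  have hζ : zetaQ (q * m') ∈ L := IntermediateField.mem_adjoin_simple_self ℚ _
  haveI := (rBase_dvr (L := L) hq hA).1
  have hw := WildModel.isWildModel hq hA hqm' hζ hpts
  haveI : Fact (IsUnit (m' : A)) := ⟨by
    by_contra h
    have h1 : residue A (m' : A) = 0 :=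
      (residue_eq_zero_iff _).mpr ((IsLocalRing.mem_maximalIdeal _).mpr h)
    exact hqm' ((CharP.cast_eq_zero_iff (κ A) q m').mp
      ((map_natCast (residue A) m').symm.trans h1))⟩
  let iA : rBase A L →+* A := cutHom (A := A) (algebraMap (rFld A L) ℚb)
  haveI : IsLocalHom iA := ⟨fun o ho => (isUnit_cut_iff _ o).mpr ((A.valuation_eq_one_iff _).mp ho)⟩
  obtain ⟨ρ, hker, hcst, hj, hK, hρ⟩ := exists_redComp_lev A iA (fun o => rfl) rfl hqm' Lv hw
  let res : wBase A →+* κ A := ((residue A).comp iA).comp (algebraMap (wBase A) (rBase A L))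
  have hsurj : Function.Surjective res := fun c => by
    rcases eq_or_ne c 0 with rfl | hc
    · exact ⟨0, map_zero _⟩
    obtain ⟨z, hz, rfl⟩ := GalRep.Model.exists_root_residue A hq hA c hc
    obtain ⟨n, hn, hz'⟩ := hz
    exact ⟨⟨⟨(z : ℚb), root_mem_inertiaFld A hq hA hn hz'⟩, z.2⟩,
      congrArg (residue A) (Subtype.ext rfl)⟩
  let E' := embR A L hζ
  haveI := GalRep.InertiaBase.isAlgClosed_rBase (L := L) hq hA
  have hPiff := algebraMap_mem_twoP_iff (E' := E') (q := q) (m := m') hqW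
    (fun z => toLS_algebraMap_top z) (embO_K_le hζ) (WildModel.embO_value hζ)
    (totRam (hζ := hζ) rfl hq hA) rfl hπ (WildModel.irreducible_rUnif hq hA)
  let P₀ := twoP (wBase A) E q m' hπ false
  let up : P₀ →+* twoP (rBase A L) E' q m' (WildModel.irreducible_rUnif hq hA) false :=
    ((algebraMap (wTop A (q * m') q m') (rTop A L hζ q m')).comp P₀.subtype).codRestrict
      (twoP (rBase A L) E' q m' (WildModel.irreducible_rUnif hq hA) false).toSubring
      fun z => (hPiff false _).mpr z.2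
  let ρW : P₀ →+* redFld m' A := (ρ.comp up).codRestrict (redFld m' A) fun z => hK (up z)
  have hkerW : ∀ z : P₀, ρW z = 0 ↔ (z : Fld₀ (wBase A) E q m') ∈ P₀.nonunits := fun z => by
    rw [← Models.nonunits_of_comap (i := false) (fun i w => hPiff i w)]
    exact ⟨fun h => (hker (up z)).mp (congrArg Subtype.val h),
      fun h => Subtype.ext ((hker (up z)).mpr h)⟩
  have hxP : x ∈ P₀ := ((isU_comap_iff _ _).mpr
    (rs_eq_of_redAt hψ hπ (δ := 1) (X := bx) (Y := bx) hred1 hred1 hY0).1).1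
  -- the series over the base
  have hfix : ∀ i, g'.coeff i ∈ inertiaFld A := fun i => (mem_inertiaFld A).mpr fun σ hσ => by
    have h := inertiaFix_iff.mp hf' σ hσ
    rw [hser, lmap_seriesToC (liftAut_spec σ)] at h
    have h2 := congrArg (fun f : LaurentSeries ℚb => f.coeff i) (seriesToC_injective h)
    simp only [seriesConj_eq_lmap, lmap_coeff] at h2
    exact h2
  let s₀ : LaurentSeries (wBase A) :=
    ⟨fun i => ⟨⟨g'.coeff i, hfix i⟩, (hy' i).1⟩,
      g'.isPWO_support.mono fun i h0 h1 => h0 (Subtype.ext (Subtype.ext h1))⟩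
  have hρx : (ρW ⟨x, hxP⟩ : LaurentSeries (κ A)) =
      qExpand (κ A) m' (y : LaurentSeries (κ A)) := by
    have h1 := hρ (up ⟨x, hxP⟩) (lmap (algebraMap (wBase A) (rBase A L)) s₀) (by
      show _ = toLS E' ((algebraMap (wTop A (q * m') q m') (rTop A L hζ q m') x :
        rTop A L hζ q m') : Fld E')
      rw [toLS_algebraMap_top, toLS_toFld, hser, seriesToC_eq_lmap]
      ext i
      rfl)
    have h2 : lmap ((residue A).comp iA) (lmap (algebraMap (wBase A) (rBase A L)) s₀) =
        expand (q * m') (NeZero.ne _) (y : LaurentSeries (κ A)) := by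
      ext i
      exact (hy' i).2
    rw [h2, ← MCurve.qExpand_eq_expand (q * m'), ← MCurve.qExpand_eq_expand q,
      ← ModularCurve.qExpand_qExpand] at h1
    exact ModularCurve.qExpand_injective q h1
  refine dvd_ord_of_roots_triple (Z := ZerosJ A p m) (P' := RedOrdInfDvd A p q m) (O := wBase A) (jF₀_ne_zero _ _ _ _) hf₀ hf₁
    (fun b hb => mem_chart_iff.mp hb) (fun b hb => mem_chart_iff.mp hb) (self_mem_chart _)
    (self_mem_chart _) false ρW hkerW res hsurj (fun o ho => ?_) (fun hmem => ?_)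
    (fun z hz => MCurve.Spec.qExpand_mem_redFld_lev A Lv hmm hA (fun h => hqm' (h.trans hmm)) hz) (fun Wv hWk hne => ?_) hxP hr₀ hr₁
    y hy0 (fun hZ => hZ) (fun (hP : RedOrdInfDvd A p q m) => hP hF hφ hφ0 hi ha hf hr hr0 hrf hg y hy hy0) hρx Q
  · refine (congrArg (fun z => ρ z) (Subtype.ext ?_ : up ⟨_, ho⟩ =
      ⟨algebraMap (rBase A L) _ (algebraMap (wBase A) (rBase A L) o),
        hw.algebraMap_mem false _⟩)).trans (hcst _ _)
    show algebraMap (wTop A (q * m') q m') (rTop A L hζ q m') (algebraMap (wBase A) _ o) = _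
    rw [← IsScalarTower.algebraMap_apply, IsScalarTower.algebraMap_apply (wBase A) (rBase A L)]
  · have hjj : algebraMap (wTop A (q * m') q m') (rTop A L hζ q m') (jF₀ (wBase A) E q m') =
        jF₀ (rBase A L) E' q m' := algebraMap_jF₀ fun z => toLS_algebraMap_top z
    refine (congrArg (fun z => ρ z) (Subtype.ext hjj : up ⟨_, hmem⟩ =
      ⟨jF₀ (rBase A L) E' q m', hjj ▸ (up ⟨_, hmem⟩).2⟩)).trans (hj _)
  · obtain ⟨u, hu0, hu1', hgen, n, hn0, hJ⟩ := hT Wv (fun z c' hz => by
        rw [show z = ⟨HahnSeries.C c', hz ▸ z.2⟩ from Subtype.ext hz]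
        exact hWk c' _) hne
    refine ⟨u, hu0, hu1', hgen, n, hn0, fun J hJ' => ?_⟩
    rcases hJ with ⟨c', z, hz, hzv, hn⟩ | ⟨hn, z, hz, hzv⟩
    · refine Or.inl ⟨c', ⟨_, C_mem_redFld A c'⟩, rfl, ?_, hn⟩
      rw [show J - (⟨_, C_mem_redFld A c'⟩ : redFld m' A) = z from Subtype.ext (by
        rw [hz, ← hJ']; rfl)]
      exact hzv
    · exact Or.inr ⟨hn, by rw [show J = z from Subtype.ext (hJ'.trans hz.symm)]; exact hzv⟩

end Fermat.Agent.R59
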