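import Fermat.Agent.R59.Mazur.Gen.RedPower
import Fermat.Agent.LL.Mazur.CompPower

/-!
# S59, unit F1: a `p`-th power on every component
-/

set_option autoImplicit false
set_option linter.style.haveILetI false
set_option linter.unusedSectionVars false

noncomputable section

namespace Fermat.Agent.R59

open Fermat.Agent.LL.Mazur

open UpperHalfPlane CongruenceSubgroup IsLocalRing
open Fermat.Agent.Galois (GQ)
open Fermat.Agent.GalRep Fermat.Agent.GalRep.Level Fermat.Agent.GalRep.Semistable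
open Fermat.Agent.ModField
open Fermat.Agent.NewVec
open Fermat.Agent.Models (IsU rs)
open scoped MatrixGroups Manifold

variable {A : ValuationSubring (AlgebraicClosure ℚ)} {p q m m' : ℕ} [Fact p.Prime] [Fact q.Prime]
  [NeZero p] [NeZero q] [NeZero m] [NeZero m']

set_option maxHeartbeats 1600000 in
set_option synthInstance.maxHeartbeats 200000 in
/-- The component over infinity. -/
theorem exists_inf_power_gen (hA : A.LiesOverPrime q) (hqp : q ≠ p)
    (hmem : RedMemBad A q m) (hdvd : RedOrdDvd A p q m) (hqm' : ¬ q ∣ m') (hmm : m ∣ m')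
    (hpts : ChartsSemi A q m')
    (S : Finset ℕ) (hmS : ∀ r : ℕ, r.Prime → r ∣ m → r ∈ S) (hqS : q ∈ S) (hpS : p ∈ S) (a : ℕ → ℤ)
    (hno : ∀ χ' : ParHom m (ZMod p),
      (∀ l : GoodPrime m, (l : ℕ) ∉ S → heckeHomAt l χ' = a (l : ℕ) • χ') → χ' = 0)
    {χ : ParHom (q * m) (ZMod p)}
    (heig : ∀ l : GoodPrime (q * m), (l : ℕ) ∉ S → heckeHomAt l χ = a (l : ℕ) • χ)
    {F : ℍ → ℂ} {φ : MF (q * m)} (hF : IsRepG (Gamma0 (q * m)) p χ F)
    (hφ : (φ : ℍ → ℂ) = F ^ p) (hφ0 : φ ≠ 0) (hi : Inv0 (q * m) (φ : ℍ → ℂ)) (ha : AlgMF φ)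
    (hf : InertiaFix A φ) (hr : HasPowRed A p φ)
    [IsDiscreteValuationRing (wBase A)] [IsDiscreteValuationRing (oBase A (q * m'))]
    {π : oBase A (q * m')} (hπ : Irreducible π) (hd : q * m ∣ q * m')
    (x : Fld₀ (wBase A) (embO A (q * m')) q m')
    (hx : toLS (embO A (q * m')) (x : Fld (embO A (q * m'))) = serAlg (q * m') (liftLvl hd φ)) :
    ∃ T : Fld₀ (wBase A) (embO A (q * m')) q m',
      IsU (comp hπ 1) (T ^ p / x) ∧ rs (comp hπ 1) (T ^ p / x) = 1 := by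
  classical
  have hq : q.Prime := Fact.out
  have hp : p.Prime := Fact.out
  haveI := GalRep.charP_residue (A := A) hq hA
  haveI := GalRep.Model.residue_isAlgClosed A
  have hqm : ¬ q ∣ m := fun h => hqm' (h.trans hmm)
  have hco : Nat.Coprime q m' := hq.coprime_iff_not_dvd.mpr hqm'
  let E := embO A (q * m')
  have hψ := constMap_oBase (A := A) (M := q * m') hπ.maximalIdeal_eq
  have hW := hasFixedConsts_oBase (A := A) (M := q * m')
  obtain ⟨r, g, t, hr0, hrf, hg, ht0, htK, hgr⟩ := exists_red_power_gen hA hqp hqm hmem hdvd S hmS hqS hpS a hno heig hF hφ hφ0 hi ha hf hr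
  obtain ⟨u, v, gu, gv, Yu, Yv, hu, hv, hgu, hgv, hguf, hgvf, hYu, hYv, hYv0, htY⟩ :=
    exists_lift_fullC hA hqm htK
  have hYu0 : Yu ≠ 0 := htY ▸ mul_ne_zero ht0 hYv0
  have hmM : m ∣ q * m' := hmm.trans (dvd_mul_left m' q)
  obtain ⟨U, hUc, hUi, hUa, hUf, hUr⟩ := exists_lvl_fun (A := A) hmM hu hgu hguf
  obtain ⟨V, hVc, hVi, hVa, hVf, hVr⟩ := exists_lvl_fun (A := A) hmM hv hgv hgvf
  -- the scaling
  obtain ⟨r₂, Φ, hr2, hr2f, hΦ, b, hb, rb⟩ := hr 1
  have hval : A.valuation (r₂ ^ p / r) = 1 := by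
    refine valuation_eq_one_of_hasRed (div_ne_zero (pow_ne_zero _ hr2) hr0)
      (hgr.expand (q * m) (NeZero.ne _))
      ((map_ne_zero_iff _ (GalRep.expand_injective _ _)).mpr (pow_ne_zero _ ht0)) (Y := Φ) ?_ hΦ
    have h1 := (hg.refine_width one_pos (q * m) (NeZero.ne _)).smul (qbarToC (r₂ ^ p / r))
    rw [one_mul] at h1
    have h2 : b = HahnSeries.C (r₂ ^ p / r) * GalRep.expand (q * m) (NeZero.ne _) g := by
      refine seriesToC_injective (hb.unique (NeZero.pos _) ?_)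
      rw [seriesToC_eq_lmap (HahnSeries.C _ * _), map_mul, lmap_C, lmap_expand, ← seriesToC_eq_lmap]
      refine h1.congr (.of_forall fun τ => ?_)
      show qbarToC (r₂ ^ p / r) * (qbarToC r * (φ : ℍ → ℂ) τ) = _
      rw [one_smul, ← mul_assoc, ← map_mul, div_mul_cancel₀ _ hr0]
      rfl
    exact h2 ▸ rb
  have hvA : r₂ ^ p / r ∈ A := (A.valuation_le_one_iff _).mp hval.le
  have hvA' : r / r₂ ^ p ∈ A :=
    (A.valuation_le_one_iff _).mp (by rw [← inv_div, map_inv₀, hval, inv_one])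
  obtain ⟨e, he⟩ := IsAlgClosed.exists_pow_nat_eq (residue A ⟨r₂ ^ p / r, hvA⟩) hp.pos
  have he0 : e ≠ 0 := fun h0 => by
    rw [h0, zero_pow hp.ne_zero, eq_comm, residue_eq_zero_iff, ← A.coe_mem_nonunits_iff,
      A.mem_nonunits_iff] at he
    exact he.ne hval
  obtain ⟨z, ⟨n, hn, hz⟩, rfl⟩ := GalRep.Model.exists_root_residue A hq hA e he0
  set c : AlgebraicClosure ℚ := (z : AlgebraicClosure ℚ) / r₂ with hcdef
  have hzf : FixedConst A (z : AlgebraicClosure ℚ) :=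
    (NewVec.mem_inertiaFld A).mp (NewVec.root_mem_inertiaFld A hq hA hn hz)
  have hcf : FixedConst A c := by rw [hcdef, div_eq_mul_inv]; exact hzf.mul hr2f.inv
  have hce : c ^ p * r = (z : AlgebraicClosure ℚ) ^ p * (r / r₂ ^ p) := by
    rw [hcdef, div_pow]; ring
  have hcA : c ^ p * r ∈ A := hce ▸ mul_mem (pow_mem z.2 p) hvA'
  have hres : residue A ⟨c ^ p * r, hcA⟩ = 1 := by
    rw [show (⟨c ^ p * r, hcA⟩ : A) = z ^ p * ⟨r / r₂ ^ p, hvA'⟩ from Subtype.ext hce,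
      map_mul, map_pow, he, ← map_mul, ← map_one (residue A)]
    refine congrArg _ (Subtype.ext ?_)
    show r₂ ^ p / r * (r / r₂ ^ p) = 1
    rw [div_mul_div_comm, mul_comm r, div_self (mul_ne_zero (pow_ne_zero _ hr2) hr0)]
  have hcrf : FixedConst A (c ^ p * r) := (hcf.pow p).mul hrf
  -- the functions
  let φ' : MF (q * m') := liftLvl hd φ
  have hi' : Inv0 (q * m') (φ' : ℍ → ℂ) := inv0_liftLvl hd hi
  have ha' : AlgMF φ' := algMF_liftLvl hd ha
  have hf' : InertiaFix A φ' := inertiaFix_liftLvl hd hf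
  let bφ : bddMF E := ⟨φ', mem_bddMF_of_fixed hW ha' hf'⟩
  let bR : bddMF E := ⟨cMF (q * m') r, mem_bddMF_of_fixed hW (algMF_cMF _) (inertiaFix_cMF hrf)⟩
  let bC : bddMF E := ⟨cMF (q * m') c, mem_bddMF_of_fixed hW (algMF_cMF _) (inertiaFix_cMF hcf)⟩
  let bP : bddMF E := ⟨cMF (q * m') (c ^ p * r),
    mem_bddMF_of_fixed hW (algMF_cMF _) (inertiaFix_cMF hcrf)⟩
  let bU : bddMF E := ⟨U, mem_bddMF_of_fixed hW hUa hUf⟩
  let bV : bddMF E := ⟨V, mem_bddMF_of_fixed hW hVa hVf⟩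
  have hx' : (x : Fld E) = toFld E bφ := toLS_injective E (hx.trans (toLS_toFld E bφ).symm)
  have hred : RedAt A (q * m') (((bR * bφ : bddMF E) : MF (q * m')) : ℍ → ℂ) 1
      (GalRep.expand (q * m') (NeZero.ne _) (t ^ p)) := by
    refine ⟨GalRep.expand (q * m') (NeZero.ne _) g, ?_, hgr.expand _ _⟩
    have h1 := hg.refine_width one_pos (q * m') (NeZero.ne _)
    rw [one_mul] at h1
    rw [seriesToC_eq_lmap, lmap_expand]
    exact h1.congr (.of_forall fun τ => by rw [one_smul]; rfl)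
  have hX : RedAt A (q * m') (((bP * bU ^ p : bddMF E) : MF (q * m')) : ℍ → ℂ) 1
      (GalRep.expand (q * m') (NeZero.ne _) (Yu ^ p)) := by
    rw [← one_mul (GalRep.expand _ _ (Yu ^ p)), map_pow, ← map_one (HahnSeries.C (Γ := ℤ)
      (R := ResidueField A)), ← hres]
    exact (redAt_cMF hcA 1).mul ((hUr Yu hYu).pow p)
  have hY : RedAt A (q * m') (((bV ^ p * (bR * bφ) : bddMF E) : MF (q * m')) : ℍ → ℂ) 1
      (GalRep.expand (q * m') (NeZero.ne _) (Yu ^ p)) := by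
    rw [← htY, mul_comm t, mul_pow, map_mul, map_pow _ Yv]
    exact ((hVr Yv hYv).pow p).mul hred
  obtain ⟨hXU, hYU, hrs⟩ := rs_eq_of_redAt hψ hπ hX hY
    ((map_ne_zero_iff _ (GalRep.expand_injective _ _)).mpr (pow_ne_zero _ hYu0))
  let T : Fld₀ (wBase A) E q m' := ⟨toFld E bC * (toFld E bU / toFld E bV),
    mul_mem (GalRep.Semistable.toFld_mem_fld₀ hW hco (inv0_cMF _ _) (algMF_cMF _) (inertiaFix_cMF hcf))
      (div_mem (GalRep.Semistable.toFld_mem_fld₀ hW hco hUi hUa hUf)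
        (GalRep.Semistable.toFld_mem_fld₀ hW hco hVi hVa hVf))⟩
  refine ⟨T, ?_⟩
  have hbV : toFld E bV ≠ 0 := fun h0 => hYU.ne_zero (by
    rw [map_mul, map_pow, h0, zero_pow hp.ne_zero, zero_mul])
  have hbR : toFld E bR * toFld E bφ ≠ 0 := fun h0 => hYU.ne_zero (by
    rw [map_mul, map_mul, h0, mul_zero])
  have hPC : bP = bC ^ p * bR := Subtype.ext (Subtype.ext (funext fun τ => by
    show qbarToC (c ^ p * r) = qbarToC c ^ p * qbarToC r
    rw [map_mul, map_pow]))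
  have e : ((T ^ p / x : Fld₀ (wBase A) E q m') : Fld E) =
      toFld E (bP * bU ^ p) / toFld E (bV ^ p * (bR * bφ)) := by
    show (toFld E bC * (toFld E bU / toFld E bV)) ^ p / (x : Fld E) = _
    rw [hx', hPC]
    simp only [map_mul, map_pow, mul_pow, div_pow]
    field_simp [left_ne_zero_of_mul hbR, right_ne_zero_of_mul hbR]
  have hU : IsU (gaussP E hπ 1) ((T ^ p / x : Fld₀ (wBase A) E q m') : Fld E) := by
    rw [e]; exact hXU.div hYU
  refine ⟨(isU_comap_iff _ _).mpr hU, ?_⟩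
  rw [← Models.rs_one (A := comp hπ 1)]
  refine (rs_comap_eq_iff _ _ hU.1 (by rw [map_one]; exact one_mem _)).mpr ?_
  rw [map_one, Models.rs_one, Subfield.subtype_apply, e, hXU.rs_div hYU, hrs, div_self hYU.2]

set_option maxHeartbeats 1600000 in
set_option synthInstance.maxHeartbeats 200000 in
/-- The function is a `p`-th power on every component. -/
theorem exists_comp_power_gen (hA : A.LiesOverPrime q) (hqp : q ≠ p)
    (hmem : RedMemBad A q m) (hdvd : RedOrdDvd A p q m) (hqm' : ¬ q ∣ m') (hmm : m ∣ m')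
    (hpts : ChartsSemi A q m')
    (S : Finset ℕ) (hmS : ∀ r : ℕ, r.Prime → r ∣ m → r ∈ S) (hqS : q ∈ S) (hpS : p ∈ S) (a : ℕ → ℤ)
    (hno : ∀ χ' : ParHom m (ZMod p),
      (∀ l : GoodPrime m, (l : ℕ) ∉ S → heckeHomAt l χ' = a (l : ℕ) • χ') → χ' = 0)
    {χ : ParHom (q * m) (ZMod p)}
    (heig : ∀ l : GoodPrime (q * m), (l : ℕ) ∉ S → heckeHomAt l χ = a (l : ℕ) • χ)
    {F : ℍ → ℂ} {φ : MF (q * m)} (hF : IsRepG (Gamma0 (q * m)) p χ F)
    (hφ : (φ : ℍ → ℂ) = F ^ p) (hφ0 : φ ≠ 0) (hi : Inv0 (q * m) (φ : ℍ → ℂ)) (ha : AlgMF φ)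
    (hf : InertiaFix A φ) (hr : HasPowRed A p φ)
    [IsDiscreteValuationRing (wBase A)] [IsDiscreteValuationRing (oBase A (q * m'))]
    {π : oBase A (q * m')} (hπ : Irreducible π) (hd : q * m ∣ q * m')
    (x : Fld₀ (wBase A) (embO A (q * m')) q m')
    (hx : toLS (embO A (q * m')) (x : Fld (embO A (q * m'))) = serAlg (q * m') (liftLvl hd φ))
    (δ : SL(2, ℤ)) :
    ∃ T : Fld₀ (wBase A) (embO A (q * m')) q m',
      IsU (comp hπ δ) (T ^ p / x) ∧ rs (comp hπ δ) (T ^ p / x) = 1 := by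
  classical
  have hq : q.Prime := Fact.out
  haveI := GalRep.charP_residue (A := A) hq hA
  obtain ⟨-, hqW, hWac⟩ := wBase_props A hq hA
  haveI := hWac
  haveI := finite_oBase (A := A) (M := q * m') hq hA rfl hqm'
  have hgen := adjoin_eq_top (A := A) (M := q * m') hq hA rfl hqm'
  have hζ := exists_wBase_pow (A := A) (M := q * m') hq hA rfl hqm'
  have hqm : ¬ q ∣ m := fun h => hqm' (h.trans hmm)
  let P := twoP (wBase A) (embO A (q * m')) q m' hπ
  obtain ⟨g₀, hg₀⟩ := GalRep.Wild.exists_lowerRow hq hqm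
  obtain ⟨s, hswap', hsx⟩ := exists_swap_fun hA hqm' hmm hpts hg₀ hi hπ hd x hx
  have hψ0 : WMF hg₀ φ hi ≠ 0 := fun h0 => (alR_rep hg₀ hF).ne_zero (funext fun τ => by
    have h1 := congrFun (congrArg (fun w : MF (q * m) => (w : ℍ → ℂ)) h0) τ
    rw [coe_WMF, hφ, Wf_pow] at h1
    exact (pow_eq_zero_iff (NeZero.ne p)).mp h1)
  obtain ⟨T₀, hT₀⟩ := exists_inf_power_gen hA hqp hmem hdvd hqm' hmm hpts S hmS hqS hpS a hno
    heig hF hφ hφ0 hi ha hf hr hπ hd x hx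
  obtain ⟨T₁, hT₁U, hT₁⟩ := exists_inf_power_gen hA hqp hmem hdvd hqm' hmm hpts S hmS hqS hpS a
    hno (fun l hl => GalRep.Wild.alR_eigen hg₀ l (heig l hl)) (alR_rep hg₀ hF)
    (by rw [coe_WMF, hφ, Wf_pow]) hψ0 (by rw [coe_WMF]; exact inv0_Wf hg₀ hi)
    (algMF_WMF hg₀ hi ha) (hf.wmf hg₀ hi) (hasPowRed_wmf hg₀ hqm hi ha hr) hπ hd (s x) hsx
  have key : ∀ j, ∃ T, IsU (P j) (T ^ p / x) ∧ rs (P j) (T ^ p / x) = 1 := by
    intro j
    cases j with
    | false => exact ⟨T₀, hT₀⟩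
    | true =>
      refine ⟨s.symm T₁, ?_⟩
      have e : s.symm T₁ ^ p / x = s.symm (T₁ ^ p / s x) := by
        rw [map_div₀, map_pow, RingEquiv.symm_apply_apply]
      rw [e]
      refine ⟨(isU_swap hswap' true).mpr hT₁U, ?_⟩
      have h1 : rs (P (!true)) (T₁ ^ p / s x) = rs (P (!true)) 1 :=
        hT₁.trans (Models.rs_one (A := P (!true))).symm
      refine (rs_swap hswap' true hT₁U.1 (P (!true)).one_mem h1).trans ?_
      rw [map_one s.symm]
      exact Models.rs_one (A := P true)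
  obtain ⟨T, hT⟩ := key (!decide ((q : ℤ) ∣ δ 1 0))
  refine ⟨T, ?_⟩
  rw [comp_eq_twoPW hqW rfl hqm' hπ hpts.1]
  exact hT

end Fermat.Agent.R59
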