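import Fermat.Agent.R59.Mazur.Gen.Defs
import Fermat.Agent.LL.Mazur.SwapVanish

/-!
# S59, unit F1: vanishing from swap roots, for any horizontal exponent
-/

set_option autoImplicit false
set_option linter.style.haveILetI false
set_option linter.unusedSectionVars false

noncomputable section

namespace Fermat.Agent.R59

open Fermat.Agent.LL.Mazur

open UpperHalfPlane CongruenceSubgroup IsLocalRing
open Fermat.Agent.GalRep Fermat.Agent.GalRep.Level
open Fermat.Agent.ModField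
open Fermat.Agent.Models (HasRootAt IsU rs)
open Fermat.Agent.GalRep.Model (chartRing)
open scoped MatrixGroups

variable {W : Type} [CommRing W] [IsDomain W] [IsDiscreteValuationRing W]
  [IsAlgClosed (ResidueField W)]
  {O : Type} [CommRing O] [IsDomain O] [IsDiscreteValuationRing O] [Algebra W O] [Module.Finite W O]
  [FaithfulSMul W O]
  {M : ℕ} [NeZero M] {E : Emb O M} {q m N n : ℕ} [Fact q.Prime] [NeZero q] [NeZero m] [NeZero N]
  [NeZero n] [Algebra W (Fld E)] [IsScalarTower W O (Fld E)]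

set_option maxHeartbeats 800000 in
/-- The multiple of the class of `s x * x ^ q` vanishes on the level group. -/
theorem vanish_of_swapRoots_gen {χ₁ χ₂ : ParHom N (ZMod n)} {F₁ F₂ : ℍ → ℂ}
    (hF₁ : IsRepG (Gamma0 N) n χ₁ F₁) (hF₂ : IsRepG (Gamma0 N) n χ₂ F₂)
    (hlev : IsLevel M (Gamma0 N)) (hqO : (q : O) ∈ maximalIdeal O) (hnW : IsUnit (n : W))
    {π : O} (hπ : Irreducible π) (s : Fld₀ W E q m ≃+* Fld₀ W E q m) {D : ℕ}
    (hhor : HorRoots W E q m n D) {L : ℕ}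
    (hs : SwapRoots hπ s L) {x : Fld₀ W E q m} {bu bs : bddMF E}
    (hxv : (x : Fld E) = toFld E bu) (hsx : (s x : Fld E) = toFld E bs)
    (hb₁ : ((bs : MF M) : ℍ → ℂ) = F₁ ^ n) (hb₂ : ((bu : MF M) : ℍ → ℂ) = F₂ ^ n)
    (hT : ∀ δ : SL(2, ℤ), ∃ T : Fld₀ W E q m,
      IsU (comp hπ δ) (T ^ n / x) ∧ rs (comp hπ δ) (T ^ n / x) = 1)
    (γ : Gamma0 N) (hγ : (γ : SL(2, ℤ)) ∈ levelG q m) :
    (((D * q ^ L) • (χ₁ + q • χ₂) : ParHom N (ZMod n)) : Additive (Gamma0 N) →+ ZMod n)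
      (Additive.ofMul γ) = 0 := by
  have hn := NeZero.pos n
  have hG : IsRepG (Gamma0 N) n (χ₁ + q • χ₂) (F₁ * F₂ ^ q) := hF₁.mul (hF₂.pow q)
  have hbb : (((bs * bu ^ q : bddMF E) : MF M) : ℍ → ℂ) = (F₁ * F₂ ^ q) ^ n := by
    rw [mul_pow, ← pow_mul, mul_comm q n, pow_mul, ← hb₁, ← hb₂]
    rfl
  have hne : ∀ {F : ℍ → ℂ} {χ : ParHom N (ZMod n)} {b : bddMF E}, IsRepG (Gamma0 N) n χ F →
      ((b : MF M) : ℍ → ℂ) = F ^ n → toFld E b ≠ 0 := fun hF hb =>
    (map_ne_zero_iff _ (toFld_injective E)).mpr fun h => hF.ne_zero (funext fun z =>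
      (pow_eq_zero_iff (NeZero.ne n)).mp (by
        have := congrFun hb z
        rw [h] at this
        exact this.symm))
  have hx0 : x ≠ 0 := fun h => hne hF₂ hb₂ (by rw [← hxv, h]; rfl)
  have hy0 : s x * x ^ q ≠ 0 := mul_ne_zero ((map_ne_zero s).mpr hx0) (pow_ne_zero _ hx0)
  have hp1 : IsPowFun n ((1 : bddMF E) : MF M) :=
    isPowFun_of_rep (χ := (0 : ParHom N (ZMod n))) WildModel.isRepG_one hlev (by rw [one_pow]; rfl)
  have hpu : IsPowFun n (bu : MF M) := isPowFun_of_rep hF₂ hlev hb₂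
  have hpy : IsPowFun n ((bs * bu ^ q : bddMF E) : MF M) := isPowFun_of_rep hG hlev hbb
  have hgv : ((s (x ^ D) * (x ^ D) ^ q : Fld₀ W E q m) : Fld E) =
      toFld E ((bs * bu ^ q) ^ D) := by
    rw [map_pow s, Subfield.coe_mul, SubmonoidClass.coe_pow, SubmonoidClass.coe_pow,
      SubmonoidClass.coe_pow, hsx, hxv, map_pow (toFld E), map_mul (toFld E), map_pow (toFld E),
      mul_pow, ← pow_mul, ← pow_mul, mul_comm q D]
  have hyv : ((s x * x ^ q : Fld₀ W E q m) : Fld E) = toFld E (bs * bu ^ q) / toFld E 1 := by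
    rw [Subfield.coe_mul, SubmonoidClass.coe_pow, hsx, hxv, map_one, div_one, map_mul, map_pow]
  obtain ⟨c, h, hc, hh, he⟩ := hs n hn hnW (x ^ D) (pow_ne_zero _ hx0)
    (fun Q hQ hQ0 hQq => by
      haveI := hQ
      exact hhor _ (Or.inl rfl) Q hQ hQ0 hQq x hx0 bu 1 hpu hp1
        (by rw [map_one, div_one, hxv]))
    (fun w hw Q hQ hQ0 hQq => by
      haveI := hQ
      have h1 := hhor _ hw Q hQ hQ0 hQq _ hy0 (bs * bu ^ q) 1 hpy hp1 hyv
      have e : s (x ^ D) * (x ^ D) ^ q = (s x * x ^ q) ^ D := by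
        rw [map_pow, mul_pow, ← pow_mul, ← pow_mul, mul_comm q]
      rw [e]
      exact h1)
    (fun δ => by
      obtain ⟨T, hT, hT1⟩ := hT δ
      refine ⟨T ^ D, ?_⟩
      rw [← pow_mul, mul_comm D n, pow_mul, ← div_pow]
      exact ⟨hT.pow D, by rw [Models.rs_pow hT.1, hT1, one_pow]⟩)
  refine WildModel.apply_eq_zero_of_pow_eq (hG.pow (D * q ^ L)) (b := (bs * bu ^ q) ^ (D * q ^ L))
    ?_ h.2 (fun h0 => hh (Subtype.ext h0)) (c := algebraMap W O c)
    ((map_ne_zero_iff _ (FaithfulSMul.algebraMap_injective _ _)).mpr hc) ?_ γ hγ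
  · rw [SubmonoidClass.coe_pow, SubmonoidClass.coe_pow, hbb, ← pow_mul, ← pow_mul, mul_comm n]
  · rw [← SubmonoidClass.coe_pow, he, Subfield.coe_mul, coe_algebraMap_fld₀,
      IsScalarTower.algebraMap_apply W O (Fld E), SubmonoidClass.coe_pow, hgv, ← map_pow, ← pow_mul]

end Fermat.Agent.R59
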