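import Fermat.Agent.R59.Mazur.Gen.CompPower
import Fermat.Agent.R59.Mazur.Gen.SwapVanish
import Fermat.Agent.LL.Mazur.LevelVanish

/-!
# S59, unit F1: `σ (W χ) = -q χ` from the facts on the component over infinity
-/

set_option autoImplicit false
set_option linter.style.haveILetI false
set_option linter.unusedSectionVars false

noncomputable section

namespace Fermat.Agent.R59

open Fermat.Agent.LL.Mazur

open UpperHalfPlane CongruenceSubgroup IsLocalRing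
open Fermat.Agent.Galois (GQ)
open Fermat.Agent.GalRep Fermat.Agent.GalRep.Level Fermat.Agent.GalRep.Semistable
open Fermat.Agent.ModField
open Fermat.Agent.NewVec
open Fermat.Agent.Models (IsU rs)
open scoped MatrixGroups

variable {A : ValuationSubring (AlgebraicClosure ℚ)} {p q m : ℕ} [Fact p.Prime] [Fact q.Prime]
  [NeZero p] [NeZero q] [NeZero m]

theorem class_eq_zero_gen {g : SL(2, ℤ)} (hg : g 1 0 = m ∧ g 1 1 = q) (hqp : q ≠ p) {D : ℕ} (hD : D.Coprime p)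
    {m' : ℕ} [NeZero (q * m')] (hd : q * m ∣ q * m') {l : ℕ}
    (hg' : GoodIndex (q * m) l) (hl1 : (l : ZMod (q * m')) = 1) {al : ℤ}
    (hla : (al : ZMod p) ≠ (l : ZMod p) + 1) {σ : GQ} {χ χ₂ : ParHom (q * m) (ZMod p)}
    (hlχ : heckeHom hg' χ = al • χ) (hχ₂b : χ₂ = (al - ((l : ℤ) + 1)) • χ) {L : ℕ}
    (hv : ∀ γ : Gamma0 (q * m), (γ : SL(2, ℤ)) ∈ levelG q m' →
      (((D * q ^ L) • (autChar (liftAut σ) (alR hg χ₂) + q • χ₂) :
        ParHom (q * m) (ZMod p)) : Additive (Gamma0 (q * m)) →+ ZMod p) (Additive.ofMul γ) = 0) :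
    (kummerGalois (q * m) p).galois σ (alR hg χ) + q • χ = 0 := by
  have hq : q.Prime := Fact.out
  have hp : p.Prime := Fact.out
  have hlin : autChar (liftAut σ) (alR hg χ₂) + q • χ₂ =
      (al - ((l : ℤ) + 1)) • ((kummerGalois (q * m) p).galois σ (alR hg χ) + q • χ) := by
    rw [← (kummerGalois (q * m) p).galois_eq σ, hχ₂b, ← alL_apply, map_zsmul, alL_apply,
      map_zsmul, smul_add, smul_comm _ q]
  have hb0 : (((al - ((l : ℤ) + 1)) : ℤ) : ZMod p) ≠ 0 := fun h0 => hla (by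
    push_cast at h0
    exact sub_eq_zero.mp h0)
  have hNL : ((D * q ^ L : ℕ) : ZMod p) ≠ 0 := fun h0 => by
    rcases hp.dvd_mul.mp ((ZMod.natCast_eq_zero_iff _ _).mp h0) with h1 | h1
    · exact hp.ne_one (Nat.dvd_one.mp (hD ▸ Nat.dvd_gcd h1 dvd_rfl))
    · exact hqp ((Nat.prime_dvd_prime_iff_eq hp hq).mp (hp.dvd_of_dvd_pow h1)).symm
  refine eq_zero_of_eigen_vanish (M := q * m') hd hg' hl1 hla ?_ fun γ hγ => ?_
  · have hW : alR hg (al • χ) = al • alR hg χ := map_zsmul (Semistable.alL hg) al χ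
    have hT : heckeHom hg' ((kummerGalois (q * m) p).galois σ (alR hg χ)) =
        al • (kummerGalois (q * m) p).galois σ (alR hg χ) := by
      rw [(kummerGalois (q * m) p).galois_eq σ, ← autChar_transfer, ← alR_heckeHom hg hg', hlχ, hW,
        ← (kummerGalois (q * m) p).galois_eq σ, ← (kummerGalois (q * m) p).galois_eq σ]
      exact LinearMap.map_smul _ _ _
    exact eigen_add (heckeHom hg') q hT hlχ
  · have h0 := hv γ (gamma_le_levelG (dvd_mul_right q m') (dvd_mul_left m' q) hγ)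
    rw [hlin] at h0
    exact apply_eq_zero_of_smul hNL hb0 h0

set_option maxHeartbeats 1600000 in
/-- `σ (W χ) = -q χ`. -/
theorem galois_alR_add_eq_zero_gen (hA : A.LiesOverPrime q) (hqp : q ≠ p) (hqm : ¬ q ∣ m)
    {m' : ℕ} [NeZero (q * m')] (hmm : m ∣ m') (hqm' : ¬ q ∣ m') (hm3 : 3 ≤ m')
    (hpts : ChartsSemi A q m') (hmem : RedMemBad A q m) (hdvd : RedOrdDvd A p q m) {D : ℕ}
    (hD : D.Coprime p)
    (hhor : haveI : NeZero m' := ⟨by omega⟩
      ∀ [IsDiscreteValuationRing (oBase A (q * m'))],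
        HorRoots (wBase A) (embO A (q * m')) q m' p D) {σ : GQ} (hσ : A.IsFrobeniusAt σ q) {g : SL(2, ℤ)}
    (hg : g 1 0 = m ∧ g 1 1 = q) (S : Finset ℕ) (hmS : ∀ r : ℕ, r.Prime → r ∣ m → r ∈ S)
    (hqS : q ∈ S) (hpS : p ∈ S) (a : ℕ → ℤ)
    (hno : ∀ χ' : ParHom m (ZMod p),
      (∀ l : GoodPrime m, (l : ℕ) ∉ S → heckeHomAt l χ' = a (l : ℕ) • χ') → χ' = 0)
    (haux : ∀ (M : ℕ) [NeZero M], ∃ l : ℕ, l.Prime ∧ l ∉ S ∧ ¬ l ∣ M ∧ (l : ZMod M) = 1 ∧
      (a l : ZMod p) ≠ (l : ZMod p) + 1)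
    {χ : ParHom (q * m) (ZMod p)}
    (heig : ∀ l : GoodPrime (q * m), (l : ℕ) ∉ S → heckeHomAt l χ = a (l : ℕ) • χ)
    (hfix : ∀ t ∈ A.inertiaSubgroupIn ℚ, (kummerGalois (q * m) p).galois t χ = χ) :
    (kummerGalois (q * m) p).galois σ (alR hg χ) + q • χ = 0 := by
  classical
  have hq : q.Prime := Fact.out
  have hp : p.Prime := Fact.out
  have hdec := hσ.mem_decompositionSubgroup
  haveI : NeZero m' := ⟨by omega⟩
  obtain ⟨hWdvr, hqW, hWac⟩ := wBase_props A hq hA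
  haveI := hWdvr
  haveI := hWac
  obtain ⟨hOdvr, -, hπ⟩ := oBase_dvr (A := A) (M := q * m') hq hA rfl hqm'
  haveI := hOdvr
  haveI := finite_oBase (A := A) (M := q * m') hq hA rfl hqm'
  haveI := charP_residue (A := A) hq hA
  have hd : q * m ∣ q * m' := Nat.mul_dvd_mul_left q hmm
  have hW := hasFixedConsts_oBase (A := A) (M := q * m')
  have hco : Nat.Coprime q m' := hq.coprime_iff_not_dvd.mpr hqm'
  -- the auxiliary prime
  obtain ⟨l, hl, hlS, hlM, hl1, hla⟩ := haux (q * m')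
  have hlN : ¬ l ∣ q * m := fun h => hlM (h.trans hd)
  have hg' : GoodIndex (q * m) l := ⟨hl, hlN⟩
  let i : GoodPrime (q * m) := ⟨⟨l, hl⟩, hlN⟩
  have hl1' : (l : ZMod (q * m)) = 1 := by
    have := congrArg (ZMod.castHom hd (ZMod (q * m))) hl1
    rwa [map_natCast, map_one] at this
  have hlχ : heckeHom hg' χ = a l • χ := heig i hlS
  set b : ℤ := a l - ((l : ℤ) + 1) with hb
  set χ₂ := heckeHom hg' χ - (l + 1) • χ with hχ₂
  have hχ₂b : χ₂ = b • χ := by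
    rw [hχ₂, hlχ, hb, sub_smul, ← natCast_zsmul]
    push_cast
    rfl
  have heig₂ : ∀ j : GoodPrime (q * m), (j : ℕ) ∉ S →
      heckeHomAt j χ₂ = a (j : ℕ) • χ₂ := fun j hj => by
    rw [hχ₂b, map_zsmul, heig j hj, smul_comm]
  -- the representative
  obtain ⟨F₀, φ₀, hF₀, hφ₀, hφ₀0, hφ₀i, hφ₀a, hφ₀f⟩ := exists_fixed_rep hfix
  have hn := NeZero.pos p
  set e := (l + 1) * (p - 1)
  have hchar : heckeHom hg' χ + e • χ = χ₂ := by
    have h1 : (e + (l + 1)) • χ = 0 := by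
      rw [show e + (l + 1) = (l + 1) * p by
        obtain ⟨k, hk⟩ := Nat.exists_eq_add_of_le hn
        simp only [e, hk, show 1 + k - 1 = k by omega]
        ring, mul_smul, parHom_nsmul_self, smul_zero]
    rw [add_smul] at h1
    rw [hχ₂, sub_eq_add_neg, eq_neg_of_add_eq_zero_left h1]
  have hH : IsRepG (Gamma0 (q * m)) p (heckeHom hg' χ) (heckeProd hg' F₀) :=
    repG_of_kummer (heckeProd_rep hg' (IsRepG.kummer hF₀) (isHeckeTransfer_heckeHom hg' χ))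
  set F := heckeProd hg' F₀ * F₀ ^ e
  have hF : IsRepG (Gamma0 (q * m)) p χ₂ F := hchar ▸ hH.mul (hF₀.pow e)
  set φ := powMF (isLevel_gamma0 (q * m)) hF
  have hφ : (φ : ℍ → ℂ) = F ^ p := rfl
  have hφ' : (φ : ℍ → ℂ) = heckeProd hg' (φ₀ : ℍ → ℂ) * (φ₀ : ℍ → ℂ) ^ e := by
    rw [hφ, hφ₀, mul_pow, ← pow_mul, ← pow_mul, mul_comm e p]
    congr 1
    funext τ
    simp only [heckeProd, Pi.pow_apply, Finset.prod_apply, Finset.prod_pow]
  have hφ0 : φ ≠ 0 := fun h => hF.ne_zero (funext fun τ => (pow_eq_zero_iff (NeZero.ne p)).mp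
    (congrFun (congrArg (fun x : MF (q * m) => (x : ℍ → ℂ)) h) τ))
  have hφi : Inv0 (q * m) (φ : ℍ → ℂ) := fun γ hγ τ => hF.isModFun_pow.invariant γ hγ τ
  have hφa : AlgMF φ := algMF_hecke hg' hφ₀i e hφ' hφ₀a
  have hφf : InertiaFix A φ := inertiaFix_hecke hg' hφ₀i e hφ' hφ₀f
  have hφr : HasPowRed A p φ := hasPowRed_hecke hA hqm hl1' hg' hn hφ₀i hφ₀a hφ₀f hφ₀0 hφ'
  -- the conjugate of the translate
  set φs := conjM (liftAut σ) (WMF hg φ hφi)
  have hWi : Inv0 (q * m) (WMF hg φ hφi : ℍ → ℂ) := by rw [coe_WMF]; exact inv0_Wf hg hφi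
  obtain ⟨Fs, hFs, hFsp⟩ := exists_conj_rep dvd_rfl (liftAut σ) (alR_rep hg hF)
    (φ := WMF hg φ hφi) ((coe_WMF hg φ hφi).trans (Wf_pow q g F p))
  have hWa := algMF_WMF hg hφi hφa
  have hsa : AlgMF φs := hWa.conj σ
  have hsf : InertiaFix A φs := InertiaFix.conj hdec hWa (hφf.wmf hg hφi)
  have hsi : Inv0 (q * m) (φs : ℍ → ℂ) := inv0_conjM hWi σ
  -- at the multiple of the level
  set E := embO A (q * m')
  let bu : bddMF E := ⟨liftLvl hd φ,
    mem_bddMF_of_fixed hW (algMF_liftLvl hd hφa) (inertiaFix_liftLvl hd hφf)⟩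
  let bs : bddMF E := ⟨liftLvl hd φs,
    mem_bddMF_of_fixed hW (algMF_liftLvl hd hsa) (inertiaFix_liftLvl hd hsf)⟩
  let x : Fld₀ (wBase A) E q m' := ⟨toFld E bu, toFld_mem_fld₀ hW hco (inv0_liftLvl hd hφi)
    (algMF_liftLvl hd hφa) (inertiaFix_liftLvl hd hφf)⟩
  have hxv : (x : Fld E) = toFld E bu := rfl
  obtain ⟨π, hπ'⟩ : ∃ π : oBase A (q * m'), Irreducible π := ⟨_, hπ⟩
  obtain ⟨s, hs⟩ := exists_swapFrob hA hqm' hpts hσ hπ'
  have hsx : (s x : Fld E) = toFld E bs := toLS_injective E (by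
    rw [hs.apply_fun m hd hg φ hφi x (by rw [hxv, toLS_toFld]), toLS_toFld])
  obtain ⟨L, hroot⟩ := exists_swap_root hqW (adjoin_eq_top hq hA rfl hqm')
    (exists_wBase_pow hq hA rfl hqm') rfl hqm' (by omega) hpts.1 hpts.2 hπ' s hs.const hs.swap
    hs.chart hs.fixed
  have hqp' : ¬ q ∣ p := fun h => hqp ((Nat.prime_dvd_prime_iff_eq hq hp).mp h)
  have hv := vanish_of_swapRoots_gen (q := q) (m := m') hFs hF ((isLevel_gamma0 (q * m)).of_dvd hd)
    (natCast_mem_maximal (A := A) (M := q * m') hq hA rfl hqm')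
    (isUnit_natCast_wBase hq hA hqp') hπ' s hhor hroot hxv hsx hFsp hφ
    (fun δ => exists_comp_power_gen hA hqp hmem hdvd hqm' hmm hpts S hmS hqS
      hpS a hno heig₂ hF hφ hφ0 hφi hφa hφf hφr hπ' hd x (by rw [hxv, toLS_toFld]) δ)
  exact class_eq_zero_gen hg hqp hD hd hg' hl1 hla hlχ hχ₂b hv

end Fermat.Agent.R59
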