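import Fermat.Agent.R59.Mazur.Main
import Fermat.Agent.R59.Mazur.Gen.LevelVanish

/-!
# S59, unit F1: Mazur's principle from a model of the component over infinity

`mazur_lower` with the lift of eigenclasses and the semistable model as inputs.
-/

set_option autoImplicit false
set_option linter.style.haveILetI false

namespace Fermat.Agent.R59

open WeierstrassCurve WeierstrassCurve.Affine.Point CongruenceSubgroup
open scoped WeierstrassCurve.Affine
open Fermat.Agent.GalRep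
open Fermat.Agent.GalRep.Semistable (alR alR_add ChartsSemi)
open Fermat.Agent.NewVec
open Fermat.Agent.ModField
open Fermat.Agent.Galois (GQ)

set_option maxHeartbeats 1600000 in
set_option synthInstance.maxHeartbeats 200000 in
/-- A semistable model at a multiple of `m` with what Mazur's principle needs on it. -/
def InfModel (A : ValuationSubring (AlgebraicClosure ℚ)) (p ℓ m : ℕ) [Fact p.Prime] [NeZero p]
    [Fact ℓ.Prime] [NeZero ℓ] [NeZero m] : Prop :=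
  ∃ (m' : ℕ) (_ : NeZero (ℓ * m')) (D : ℕ) (_ : m ∣ m') (_ : ¬ ℓ ∣ m') (hm3 : 3 ≤ m'),
    ChartsSemi A ℓ m' ∧ RedMemBad A ℓ m ∧ RedOrdDvd A p ℓ m ∧ D.Coprime p ∧
      haveI : NeZero m' := ⟨by omega⟩
      ∀ [IsDiscreteValuationRing (oBase A (ℓ * m'))],
        HorRoots (wBase A) (embO A (ℓ * m')) ℓ m' p D

attribute [local irreducible] kummerGalois autChar

set_option maxHeartbeats 1600000 in
set_option synthInstance.maxHeartbeats 400000 in
/-- **Mazur's principle.** `ℓ` can be removed from the level when `W[p]` is unramified at `ℓ` and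
`ℓ` is not `1` modulo `p` or the decomposition group at `ℓ` does not act by scalars. -/
theorem mazur_lower_of_model {p : ℕ} [Fact p.Prime] [NeZero p] (hp2 : p ≠ 2) (W : WeierstrassCurve ℤ) (hΔ : W.Δ ≠ 0)
    (hirr : W.ModRepIsIrreducible p) {ℓ m : ℕ} [NeZero m] (hℓ : ℓ.Prime)
    (hℓp : ℓ ≠ p) (hℓm : ¬ ℓ ∣ m)
    (hres : W.IsResiduallyModularOfLevel p (ℓ * m))
    [Fact ℓ.Prime] [NeZero ℓ]
    (hunr : GaloisRepUnramifiedAt (K := AlgebraicClosure ℚ) ℚ (W.map (Int.castRingHom ℚ)) p ℓ)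
    (hcase : (ℓ : ZMod p) ≠ 1 ∨ ∀ A : ValuationSubring (AlgebraicClosure ℚ),
      A.LiesOverPrime ℓ → DecompNonScalar W p A)
    (hlift : ∀ (S : Finset ℕ), (∀ r : ℕ, r.Prime → r ∣ m → r ∈ S) → ∀ (a : ℕ → ℤ)
      (χ : ParHom m (ZMod p)), χ ≠ 0 →
        (∀ l : GoodPrime m, (l : ℕ) ∉ S → heckeHomAt l χ = a (l : ℕ) • χ) →
          ∃ θ : CuspForm.heckeAlgebra m 2 (↑S : Set ℕ) →+* ZMod p,
            ∀ (r : ℕ) (hr : r.Prime) (hrm : ¬ r ∣ m) (hrS : r ∉ (↑S : Set ℕ)),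
              θ (CuspForm.heckeAlgebra.T hr hrm hrS) = (a r : ZMod p))
    (hmodel : ∀ (A : ValuationSubring (AlgebraicClosure ℚ)), A.LiesOverPrime ℓ →
      InfModel A p ℓ m) :
    W.IsResiduallyModularOfLevel p m := by
  classical
  have hp : p.Prime := Fact.out
  haveI := isElliptic_generic W hΔ
  have hm : 0 < m := NeZero.pos m
  haveI : NeZero (ℓ * m) := ⟨Nat.mul_ne_zero hℓ.ne_zero hm.ne'⟩
  obtain ⟨f, 𝔪, hf, h𝔪, hp𝔪, hcong⟩ := hres
  by_contra hcon
  set S : Finset ℕ :=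
    insert ℓ (insert p (W.Δ.natAbs.primeFactors ∪ m.primeFactors)) with hSdef
  have hℓS : ℓ ∈ S := Finset.mem_insert_self _ _
  have hpS : p ∈ S := Finset.mem_insert_of_mem (Finset.mem_insert_self _ _)
  have hmS : ∀ r : ℕ, r.Prime → r ∣ m → r ∈ S := fun r hr hrm =>
    Finset.mem_insert_of_mem (Finset.mem_insert_of_mem (Finset.mem_union_right _
      (Nat.mem_primeFactors.mpr ⟨hr, hrm, hm.ne'⟩)))
  have hS : ∀ r : ℕ, r.Prime → r ∉ S → W.IsGoodPrimeFor r ∧ r ≠ p := fun r hr hrS =>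
    ⟨fun h => hrS (Finset.mem_insert_of_mem (Finset.mem_insert_of_mem (Finset.mem_union_left _
      (Nat.mem_primeFactors.mpr ⟨hr, Int.natCast_dvd.mp h, Int.natAbs_ne_zero.mpr hΔ⟩)))),
      fun h => hrS (h ▸ hpS)⟩
  have hno : ∀ χ' : ParHom m (ZMod p), (∀ l : GoodPrime m, (l : ℕ) ∉ S →
      heckeHomAt l χ' = W.apOfModel (l : ℕ) • χ') → χ' = 0 := fun χ' h => by
    by_contra h0
    obtain ⟨θ, hθ⟩ := hlift S hmS W.apOfModel χ' h0 h
    exact hcon (residuallyModular_of_theta p W hp2 hΔ S hS hmS θ hθ)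
  obtain ⟨A, hA⟩ := Galois.exists_liesOverPrime hℓ
  obtain ⟨σ, hσ⟩ := Galois.exists_isFrobeniusAt hℓ hA
  obtain ⟨g, hg⟩ := Wild.exists_lowerRow hℓ hℓm
  set ρ := (kummerGalois (ℓ * m) p).galois with hρ
  obtain ⟨χ₀, h0, hhecke, hrel⟩ := exists_eigenClass p W hp2 hΔ hf h𝔪 hp𝔪 hcong S hS
  obtain ⟨ψ, hψ, hψ0⟩ := exists_fixed_eigenW (S := S) hp2 hΔ h0 ⟨hhecke, hrel⟩
  set V₀ := eigenSet p W (ℓ * m) S with hV₀
  obtain ⟨m', _, D, hmm, hℓm', hm3, hpts, hmem, hdvd, hD, hhor⟩ := hmodel A hA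
  have hkey : ∀ x ∈ V₀, ρ σ (alR hg x) + ℓ • x = 0 := fun x hx =>
    galois_alR_add_eq_zero_gen hA hℓp hℓm hmm hℓm' hm3 hpts hmem hdvd hD hhor hσ hg S hmS hℓS hpS
      W.apOfModel hno (fun M _ => exists_prime_nonEisensteinW p W hp2 hΔ hirr M S hS) hx.1.hecke
      fun t ht => hx.2 t fun y => hunr A hA t ht y
  have hW₀ : ∀ x ∈ V₀, alR hg x ∈ V₀ := fun x hx =>
    ⟨⟨fun l hl => Wild.alR_eigen hg l (hx.1.hecke l hl), fun t => by
      have h := congrArg (Semistable.alL hg) (hx.1.rel t)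
      simp only [map_add, map_nsmul, Semistable.alL_apply] at h
      rwa [← LL.Mazur.alR_galois hg, ← LL.Mazur.alR_galois hg] at h⟩,
     fun t ht => by rw [LL.Mazur.alR_galois hg, hx.2 t ht]⟩
  -- an eigenvector of the involution
  obtain ⟨ε, v, hv, hv0, hvε, hε⟩ : ∃ (ε : ℤ) (v : ParHom (ℓ * m) (ZMod p)),
      v ∈ V₀ ∧ v ≠ 0 ∧ alR hg v = ε • v ∧ ε * ε = 1 := by
    by_cases h1 : ψ + alR hg ψ = 0
    · exact ⟨-1, ψ, hψ, hψ0, by rw [neg_smul, one_smul]; exact eq_neg_of_add_eq_zero_right h1,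
        by norm_num⟩
    · exact ⟨1, ψ + alR hg ψ, add_mem hψ (hW₀ ψ hψ), h1,
        by rw [one_smul, alR_add, LL.Mazur.alR_alR, add_comm], by norm_num⟩
  obtain ⟨V, hmem⟩ : ∃ V : AddSubgroup (ParHom (ℓ * m) (ZMod p)),
      ∀ x, x ∈ V ↔ x ∈ V₀ ∧ alR hg x = ε • x := ⟨
    { carrier := {x | x ∈ V₀ ∧ alR hg x = ε • x}
      add_mem' := fun hx hy => ⟨add_mem hx.1 hy.1, by rw [alR_add, hx.2, hy.2, smul_add]⟩
      zero_mem' := ⟨zero_mem _, by
        rw [smul_zero, ← Semistable.alL_apply hg, _root_.map_zero]⟩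
      neg_mem' := fun hx => ⟨neg_mem hx.1, by
        rw [← Semistable.alL_apply hg, map_neg, Semistable.alL_apply, hx.2, smul_neg]⟩ },
    fun x => Iff.rfl⟩
  letI : Module (ZMod p) V :=
    AddCommGroup.zmodModule fun x => Subtype.ext (parHom_nsmul_eq_zero x.1)
  haveI : Nontrivial V :=
    ⟨⟨⟨v, (hmem v).mpr ⟨hv, hvε⟩⟩, 0, fun h => hv0 (congrArg Subtype.val h)⟩⟩
  have hstab : ∀ t : GQ, ∀ x ∈ V, ρ t x ∈ V := fun t x hx' => (hmem _).mpr <|
    have hx := (hmem x).mp hx'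
    ⟨⟨hx.1.1.galois t, fun k hk => by
      have hc : t⁻¹ * k * t ∈ eKer p W := fun y => by
        rw [mul_smul, mul_smul, hk, inv_smul_smul]
      conv_rhs => rw [← hx.1.2 _ hc, ← Module.End.mul_apply, ← map_mul, ← mul_assoc, ← mul_assoc,
        mul_inv_cancel, one_mul, map_mul, Module.End.mul_apply]⟩,
     by rw [← LL.Mazur.alR_galois hg, hx.2, map_zsmul]⟩
  have hω : omg p σ = ℓ := omg_frobenius p hℓ hℓp hA hσ
  obtain ⟨hq1, hscal⟩ := scalar_of_stableW p W hp2 hΔ hirr ρ V hstab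
    (fun t x hx => ((hmem x).mp hx).1.1.rel t) (-(ε * ℓ))
    (by linear_combination (ℓ : ℤ) * ℓ * hε) (fun x hx => by
      obtain ⟨hx1, hx2⟩ := (hmem x).mp hx
      have h := hkey x hx1
      rw [hx2, map_zsmul] at h
      have h' := congrArg (fun y => ε • y) h
      simp only [smul_add, smul_smul, hε, one_smul, smul_zero] at h'
      rw [eq_neg_of_add_eq_zero_left h', neg_smul, mul_smul, natCast_zsmul]) hω
  set c : ZMod p := ((-(ε * ℓ) : ℤ) : ZMod p)
  rcases hcase with h | h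
  · exact h hq1
  obtain ⟨t, ht, hns⟩ := h A hA
  haveI := finite_eFld p W
  haveI := normal_eFld p W
  haveI : IsGalois ℚ (eFld p W) := ⟨⟩
  obtain ⟨k, s, hs, hts⟩ := LL.Mazur.exists_pow_inertia hℓ hA hσ (eFld p W) ht
  obtain ⟨z, hz⟩ := ZMod.intCast_surjective (c ^ k)
  obtain ⟨x, hx⟩ := hns z
  refine hx ?_
  have hkr : (σ ^ k * s)⁻¹ * t ∈ eKer p W := (fix_eFld_iff p W).mp fun y hy => by
    rw [AlgEquiv.mul_apply, hts y hy, ← AlgEquiv.mul_apply (σ ^ k) s]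
    exact (σ ^ k * s).symm_apply_apply y
  have hsx : s • x = x := hunr A hA s hs x
  calc t • x = (σ ^ k * s) • (((σ ^ k * s)⁻¹ * t) • x) := by rw [← mul_smul, mul_inv_cancel_left]
    _ = (σ ^ k) • x := by rw [hkr x, mul_smul, hsx]
    _ = galoisRepModuleEnd (K := AlgebraicClosure ℚ) ℚ (W.map (Int.castRingHom ℚ)).toAffine p
        (σ ^ k) x := rfl
    _ = z • x := by
      rw [map_pow, hscal, smul_pow, one_pow, LinearMap.smul_apply, Module.End.one_apply, ← hz,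
        Int.cast_smul_eq_zsmul]

end Fermat.Agent.R59
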