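import Fermat.Agent.R59.Mazur.Gen.Defs

/-!
# S59, unit F1: the reduction is a `p`-th power, given the two facts on the component over infinity
-/

set_option autoImplicit false
set_option linter.style.haveILetI false
set_option linter.unusedSectionVars false

noncomputable section

namespace Fermat.Agent.R59

open Fermat.Agent.LL.Mazur

open UpperHalfPlane CongruenceSubgroup IsLocalRing ModularCurve
open Fermat.Agent.GalRep Fermat.Agent.GalRep.Level Fermat.Agent.GalRep.Semistable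
open scoped MatrixGroups

local notation "ℚb" => AlgebraicClosure ℚ
local notation "κ" A:max => IsLocalRing.ResidueField A

variable {A : ValuationSubring (AlgebraicClosure ℚ)} {p q m m' : ℕ} [Fact p.Prime] [Fact q.Prime]
  [NeZero p] [NeZero q] [NeZero m] [NeZero m']

set_option maxHeartbeats 1000000 in
/-- The reduction is a `p`-th power. -/
theorem exists_red_power_gen (hA : A.LiesOverPrime q) (hqp : q ≠ p) (hqm : ¬ q ∣ m)
    (hmem : RedMemBad A q m) (hdvd : RedOrdDvd A p q m)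
    (S : Finset ℕ) (hmS : ∀ r : ℕ, r.Prime → r ∣ m → r ∈ S) (hqS : q ∈ S) (hpS : p ∈ S) (a : ℕ → ℤ)
    (hno : ∀ χ' : ParHom m (ZMod p),
      (∀ l : GoodPrime m, (l : ℕ) ∉ S → heckeHomAt l χ' = a (l : ℕ) • χ') → χ' = 0)
    {χ : ParHom (q * m) (ZMod p)}
    (heig : ∀ l : GoodPrime (q * m), (l : ℕ) ∉ S → heckeHomAt l χ = a (l : ℕ) • χ)
    {F : ℍ → ℂ} {φ : MF (q * m)} (hF : IsRepG (Gamma0 (q * m)) p χ F)
    (hφ : (φ : ℍ → ℂ) = F ^ p) (hφ0 : φ ≠ 0) (hi : Inv0 (q * m) (φ : ℍ → ℂ)) (ha : AlgMF φ)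
    (hf : InertiaFix A φ) (hr : HasPowRed A p φ) :
    ∃ (r : ℚb) (g : LaurentSeries ℚb) (t : LaurentSeries (κ A)), r ≠ 0 ∧ FixedConst A r ∧
      HasQSeries 1 (fun τ => qbarToC r * (φ : ℍ → ℂ) τ) (seriesToC g) ∧ t ≠ 0 ∧
      t ∈ modularFunctionFieldFullC (κ A) m ∧ HasRed A g (t ^ p) := by
  classical
  have hq : q.Prime := Fact.out
  have hp : p.Prime := Fact.out
  haveI := GalRep.charP_residue (A := A) hq hA
  have hK : IsKummerRep (q * m) p χ F := IsRepG.kummer hF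
  -- the series of the function
  obtain ⟨fC, hfC, hfC0⟩ := hK.exists_series_one
  have hser := serAlg_of_rep_pow (M' := q * m) hfC hφ
  obtain ⟨g₀, hg₀⟩ := ha
  obtain ⟨s, hs⟩ : ∃ s, seriesToC s = fC ^ p := exists_seriesToC_eq fun j => by
    rw [← expand_coeff_mul (q * m) (NeZero.ne _) (fC ^ p) j, ← hser, ← hg₀]
    exact (Algebra.IsAlgebraic.isAlgebraic _).algHom qbarToC.toRatAlgHom
  obtain ⟨f₀, rfl⟩ := exists_series_of_pow hfC0 hs
  obtain ⟨r₂, Φ, hr2, hr2f, hΦ, b, hb, rb⟩ := hr 1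
  have hr0 : qbarToC r₂ ≠ 0 := (map_ne_zero_iff _ qbarToC_injective).mpr hr2
  set f := HahnSeries.C r₂ * f₀
  have hF₁ : IsKummerRep (q * m) p χ (fun τ => qbarToC r₂ * F τ) := hK.const_mul hr0
  have hf₁ : HasQSeries 1 (fun τ => qbarToC r₂ * F τ) (seriesToC f) := by
    rw [seriesToC_eq_lmap, map_mul, lmap_C]
    exact hfC.smul _ |>.congr (.of_forall fun τ => rfl)
  have hser₁ : serAlg (q * m) (cMF (q * m) (r₂ ^ p) * φ) =
      seriesToC (expand (q * m) (NeZero.ne _) (f ^ p)) := by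
    rw [serAlg_of_rep_pow (F := fun τ => qbarToC r₂ * F τ) hf₁ (n := p) (funext fun τ => ?_),
      seriesToC_eq_lmap, seriesToC_eq_lmap, lmap_expand, map_pow (lmap qbarToC)]
    show qbarToC (r₂ ^ p) * (φ : ℍ → ℂ) τ = _
    rw [hφ]
    simp only [Pi.pow_apply, mul_pow, map_pow]
  have hb' : b = expand (q * m) (NeZero.ne _) (f ^ p) := seriesToC_injective (by
    rw [← hser₁]
    exact ((hb.congr (.of_forall fun τ => by rw [one_smul])).unique (NeZero.pos _)
      (hasQSeries_serHom _)))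
  subst hb'
  obtain ⟨Y, hY, rfl⟩ := exists_hasRed_of_expand (NeZero.ne _) rb
  have hY0 : Y ≠ 0 := fun h => hΦ (by rw [h, map_zero])
  have hfix : ∀ i, FixedConst A ((f ^ p).coeff i) := fun i σ hσ => by
    have h := inertiaFix_iff.mp (inertiaFix_cMF_mul (hr2f.pow p) hf) σ hσ
    rw [hser₁, lmap_seriesToC (liftAut_spec σ)] at h
    have h2 := congrArg (fun x : LaurentSeries ℚb => x.coeff (((q * m : ℕ) : ℤ) * i))
      (seriesToC_injective h)
    simp only [seriesConj_eq_lmap, lmap_coeff, expand_coeff_mul] at h2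
    exact h2
  have hpow : ((fun τ => qbarToC r₂ * F τ) ^ p) = fun τ => qbarToC (r₂ ^ p) * (φ : ℍ → ℂ) τ :=
    funext fun τ => by rw [hφ]; simp only [Pi.pow_apply, mul_pow, map_pow]
  obtain ⟨hmod, hsp⟩ := isModFun_pow_rep hF₁ hf₁
  rw [hpow] at hmod hsp
  have hYK := hmem hmod hsp hfix hY
  -- the class at level `m`
  obtain ⟨χ', F', f', g, hg0, hF', hf', hZ⟩ := exists_kummer_lift hqp hqm hA ⟨Y, hYK⟩
    (fun h => hY0 (congrArg Subtype.val h)) fun Q =>
      hdvd hF hφ hφ0 hi ⟨g₀, hg₀⟩ hf hr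
        (pow_ne_zero _ hr2) (hr2f.pow p) hsp ⟨Y, hYK⟩ hY
        (fun h => hY0 (congrArg Subtype.val h)) Q
  change HasRed A (f' ^ p) (Y * (g : LaurentSeries (κ A)) ^ p) at hZ
  have hg0' : (g : LaurentSeries (κ A)) ≠ 0 := fun h => hg0 (Subtype.ext h)
  have hZ0 : Y * (g : LaurentSeries (κ A)) ^ p ≠ 0 := mul_ne_zero hY0 (pow_ne_zero _ hg0')
  -- it is an eigenclass
  have hχ' : χ' = 0 := hno χ' fun l hlS => by
    have hgl' : GoodIndex m (l : ℕ) := goodIndex l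
    have hlq : (l : ℕ) ≠ q := fun h => hlS (h ▸ hqS)
    have hql : ¬ q ∣ (l : ℕ) := fun h => hlq
      (((Nat.prime_dvd_prime_iff_eq hq hgl'.prime).mp h).symm)
    have hlN : ¬ (l : ℕ) ∣ q * m := fun h => (hgl'.prime.dvd_mul.mp h).elim
      (fun h1 => hlq ((Nat.prime_dvd_prime_iff_eq hgl'.prime hq).mp h1)) l.2
    have hgl : GoodIndex (q * m) (l : ℕ) := goodIndex (⟨l.1, hlN⟩ : GoodPrime (q * m))
    have hl : heckeHom hgl χ = a (l : ℕ) • χ := heig ⟨l.1, hlN⟩ hlS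
    haveI : NeZero (l : ℕ) := ⟨hgl'.prime.ne_zero⟩
    choose ub _ hub using fun ω : rootsOfUnity (l : ℕ) ℚb =>
      GalRep.Wild.exists_twist_red_root (A := A) (NeZero.ne (l : ℕ))
        ((mem_rootsOfUnity _ _).mp ω.2)
    set r : ℕ := (((-a (l : ℕ) : ℤ) : ZMod p)).val
    have hkill : ∀ {N : ℕ} (ψ : ParHom N (ZMod p)), r • ψ = -(a (l : ℕ) • ψ) := fun ψ => by
      refine Subtype.ext (AddMonoidHom.ext fun x => ?_)
      show ((r • ψ : ParHom _ (ZMod p)) : Additive (Gamma0 _) →+ ZMod p) x =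
        -(a (l : ℕ) • (ψ : Additive (Gamma0 _) →+ ZMod p) x)
      rw [Submodule.coe_smul_of_tower, AddMonoidHom.nsmul_apply, nsmul_eq_mul, zsmul_eq_mul,
        ZMod.natCast_zmod_val, Int.cast_neg, neg_mul]
    -- a lift of `g`
    obtain ⟨α, β, ga, gb, Ya, Yb, hα, hβ, hga, hgb, hgaf, -, hYa, hYb, hYb0, hgab⟩ :=
      exists_lift_fullC hA hqm g.2
    have hYa0 : Ya ≠ 0 := hgab ▸ mul_ne_zero hg0' hYb0
    have hα0 : α ≠ 0 := ne_zero_of_red hga (n := 1) one_ne_zero (by rw [pow_one]; exact hYa) hYa0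
    have hβ0 : β ≠ 0 := ne_zero_of_red hgb (n := 1) one_ne_zero (by rw [pow_one]; exact hYb) hYb0
    have hV := hF₁.mul (kummer_of_modFun (isModFun_of_dvd (dvd_mul_left m q) hα) hα0)
    have hV' := hF'.mul (kummer_of_modFun hβ hβ0)
    rw [add_zero] at hV hV'
    have hVr : HasRed A ((f * ga) ^ p) (Y * Ya ^ p) := by rw [mul_pow]; exact hY.mul (hYa.pow p)
    have hV'r : HasRed A ((f' * gb) ^ p) (Y * Ya ^ p) := by
      rw [mul_pow, show Y * Ya ^ p = Y * (g : LaurentSeries (κ A)) ^ p * Yb ^ p by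
        rw [← hgab]; ring]
      exact hZ.mul (hYb.pow p)
    have hV0 : Y * Ya ^ p ≠ 0 := mul_ne_zero hY0 (pow_ne_zero _ hYa0)
    obtain ⟨H, h, U, hH, hh, hU, hU0, hUe, hUf⟩ := exists_transfer_red hA hgl hql ub hub hV
      (hasQSeries_mul_seriesToC hf₁ hga) hVr hV0 r
    obtain ⟨H', h', U', hH', hh', hU', -, hUe', -⟩ := exists_transfer_red hA hgl' hql ub hub hV'
      (hasQSeries_mul_seriesToC hf' hgb) hV'r hV0 r
    obtain rfl : U' = U := expand_injective (l : ℕ) (NeZero.ne _) (hUe'.trans hUe.symm)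
    rw [hl, hkill, add_neg_cancel] at hH
    obtain ⟨X, hX, hX0, hXp, hXf⟩ := exists_red_root hA hqp hH.isModFun hh hU hU0
    have hVf : ∀ i, FixedConst A (((f * ga) ^ p).coeff i) := fun i σ hσ => by
      have h1 : seriesConj σ ((f * ga) ^ p) = (f * ga) ^ p := by
        rw [seriesConj_eq_lmap, mul_pow, map_mul, map_pow (lmap _) ga]
        refine congrArg₂ (· * ·) ?_ (congrArg (· ^ p) ?_)
        · ext j; exact hfix j σ hσ
        · ext j; exact hgaf j σ hσ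
      exact congrArg (fun x : LaurentSeries ℚb => x.coeff i) h1
    have hXK := hmem hH.isModFun hh (hXf (hUf hVf)) hX
    obtain ⟨α₂, β₂, ga₂, gb₂, Ya₂, Yb₂, hα₂, hβ₂, hga₂, hgb₂, -, -, hYa₂, hYb₂, hYb₂0, hab₂⟩ :=
      exists_lift_fullC hA hqm hXK
    have hβ₂0 : β₂ ≠ 0 := ne_zero_of_red hgb₂ (n := 1) one_ne_zero (by rw [pow_one]; exact hYb₂)
      hYb₂0
    have hred : HasRed A ((h' * gb₂) ^ p) (Ya₂ ^ p) := by
      rw [mul_pow, ← hab₂, mul_pow, hXp]
      exact hU'.mul (hYb₂.pow p)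
    have hW := hH'.mul (kummer_of_modFun hβ₂ hβ₂0)
    rw [add_zero] at hW
    have hξ := GalRep.Model.kummerReduction_exact hq hqm
      (fun h => hqp ((Nat.prime_dvd_prime_iff_eq hq hp).mp h)) hA hW
      (hasQSeries_mul_seriesToC hh' hgb₂) hα₂ hga₂ hred.integral hYa₂.integral
      (hYa₂.exists_unit (hab₂ ▸ mul_ne_zero hX0 hYb₂0)) (hred.congr (hYa₂.pow p))
    rw [hkill, add_neg_eq_zero] at hξ
    exact hξ
  subst hχ'
  obtain ⟨X, hX, hX0, hXp, -⟩ := exists_red_root hA hqp hF'.isModFun hf' hZ hZ0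
  have hXK := red_mem_fullC hA hqm hF'.isModFun hf' hX
  refine ⟨r₂ ^ p, f ^ p, X / g, pow_ne_zero _ hr2, hr2f.pow p, hsp, div_ne_zero hX0 hg0',
    div_mem hXK g.2, ?_⟩
  rw [div_pow, hXp, mul_div_cancel_right₀ _ (pow_ne_zero _ hg0')]
  exact hY

end Fermat.Agent.R59
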